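import Fermat.Agent.LT.H670.QOut.Api

/-!
# Row LT, tower T7, sub-tower QOUT (helper670): SPEC

OFF-MAIN.  Frozen interface + frozen leaf Props + PROVED top.  Nothing is assumed: every leaf is a
`Prop`, the top is a theorem taking the leaves as hypotheses.

## What QOUT does

Input (`IsHolWtOneFormFor π φ`, vocabulary of `H556/A0.lean` only): a bounded function `φ ≠ 0` on
`GL₂(𝔸_ℚ)`, left `GL₂(ℚ)`-invariant, right `U(π.level)`-invariant, invariant under the positive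
real scalars, of WEIGHT ONE under `SO(2)` (`φ(g k_θ) = e^{iθ} φ(g)`), HOLOMORPHIC
(`z ↦ y^{-1/2} φ(g_z g_f)` is holomorphic on `ℍ` for every `g_f` trivial at the real place), and a
Hecke eigenfunction at `v ∤ π.level` with the eigenvalues of `π`
(`A0.IsHeckeEigenAt φ v (π.a v) (π.b v)`).

Output (`ClassOut π`): `N`, a Dirichlet character `ε` mod `N` and a normalised cuspidal
eigenform `f` of weight one on `Γ₁(N)` (`A0.IsWtOneEigenform N ε f`) with
`a_p(f) = π.a p`, `ε(p) = π.b p` at ALL primes `p ∤ N`; adapter `classOut_isCuspHolQ` to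
`A0.IsCuspHolQ`.

No cuspidality hypothesis on `φ` is needed: bounded + weight one + holomorphic gives
`|f(z)| ≤ C y^{-1/2}` for every member of the family, hence vanishing at all cusps.
No strong approximation is needed (only left translation by rational matrices).

## Leaves

* `QA` -- adelic to classical: a NONZERO cusp form `G` on `Γ₁(M)` with the TWISTED Hecke relations
  `c_{pn} + β(p) c_{n/p} = α(p) a_p c_n`, `β(p) = α(p)² b_p` (`α = ψ₁`, `β = ψ₁/ψ₂` for an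
  eigencharacter `(ψ₁,ψ₂)` of the diagonal torus mod the level).
* `QN` -- classical: normalisation (`U_m` to reach `c_1 ≠ 0`) and untwisting by `α⁻¹`.
-/

set_option autoImplicit false

open IsDedekindDomain NumberField AutomorphicForm
open CongruenceSubgroup UpperHalfPlane
open scoped MatrixGroups Manifold

noncomputable section

namespace Fermat.Agent.LT.H670.QOut

open Fermat.Agent.LT.H556

/-! ## The interface -/

/-- the matrix of `k_θ = [[cos θ, sin θ], [-sin θ, cos θ]]` -/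
def rotC (θ : ℝ) : Matrix (Fin 2) (Fin 2) ℂ :=
  !![((Real.cos θ : ℝ) : ℂ), ((Real.sin θ : ℝ) : ℂ);
     -((Real.sin θ : ℝ) : ℂ), ((Real.cos θ : ℝ) : ℂ)]

/-- the matrix of `g_z = [[y, x], [0, 1]]` -/
def gzC (z : ℍ) : Matrix (Fin 2) (Fin 2) ℂ :=
  !![((z.im : ℝ) : ℂ), ((z.re : ℝ) : ℂ); 0, 1]

/-- **Input of QOUT.**  `φ` is a holomorphic form of weight one on `GL₂(𝔸_ℚ)` of level
`U(π.level)` with the Hecke eigensystem `π` away from the level. -/
structure IsHolWtOneFormFor (π : HeckeEigensystem ℚ ℂ) (φ : A0.G ℚ → ℂ) : Prop where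
  bdd : ∃ C : ℝ, ∀ g : A0.G ℚ, ‖φ g‖ ≤ C
  ne_zero : ∃ g : A0.G ℚ, φ g ≠ 0
  left_inv : ∀ (γ : GL (Fin 2) ℚ) (g : A0.G ℚ),
    φ (Matrix.GeneralLinearGroup.map (algebraMap ℚ (A0.Adl ℚ)) γ * g) = φ g
  level_inv : ∀ u : A0.G ℚ, A0.InLevelGroup π.level u → ∀ g : A0.G ℚ, φ (g * u) = φ g
  arch_scalar : ∀ (w : InfinitePlace ℚ) (z : A0.G ℚ), A0.IsArchPosScalar w z →
    ∀ g : A0.G ℚ, φ (g * z) = φ g
  weight_one : ∀ (w : InfinitePlace ℚ) (θ : ℝ) (k : A0.G ℚ), A0.IsLocalAtInf w k →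
    A0.infComp w k = rotC θ →
    ∀ g : A0.G ℚ, φ (g * k) = Complex.exp (Complex.I * ((θ : ℝ) : ℂ)) * φ g
  holo : ∀ (w : InfinitePlace ℚ) (Y : ℍ → A0.G ℚ),
    (∀ z : ℍ, A0.IsLocalAtInf w (Y z) ∧ A0.infComp w (Y z) = gzC z) →
    ∀ g : A0.G ℚ, (∀ w' : InfinitePlace ℚ, A0.TrivAtInf w' g) →
      MDifferentiable 𝓘(ℂ) 𝓘(ℂ)
        (fun z : ℍ => (((Real.sqrt z.im : ℝ) : ℂ))⁻¹ * φ (Y z * g))
  hecke : ∀ v : HeightOneSpectrum (𝓞 ℚ), ¬ v.asIdeal ∣ π.level →
    A0.IsHeckeEigenAt φ v (π.a v) (π.b v)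

/-- **Output of QOUT.**  A classical normalised weight-one cuspidal eigenform with the
eigenvalues of `π` at all primes not dividing its level. -/
def ClassOut (π : HeckeEigensystem ℚ ℂ) : Prop :=
  ∃ (N : ℕ) (_ : NeZero N) (ε : DirichletCharacter ℂ N) (f : CuspForm (Gamma1 N) 1),
    A0.IsWtOneEigenform N ε f ∧
      ∀ p : Nat.Primes, ¬ (p : ℕ) ∣ N →
        π.a (ratPrime p) = ModularFormClass.qCoeff f (p : ℕ) ∧
        π.b (ratPrime p) = ε (((p : ℕ) : ℕ) : ZMod N)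

/-- **THE STATEMENT OF QOUT.** -/
def QOutC : Prop :=
  ∀ (π : HeckeEigensystem ℚ ℂ) (φ : A0.G ℚ → ℂ), IsHolWtOneFormFor π φ → ClassOut π

/-! ## The leaves -/

/-- twisted Hecke relations for the coefficients of `G` -/
def TwistedEigen (M : ℕ) (α β : DirichletCharacter ℂ M) (a b : Nat.Primes → ℂ)
    (G : CuspForm (Gamma1 M) 1) : Prop :=
  ∀ p : Nat.Primes, ¬ (p : ℕ) ∣ M →
    (∀ n : ℕ,
      ModularFormClass.qCoeff G ((p : ℕ) * n) +
          β (((p : ℕ) : ℕ) : ZMod M) *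
            (if (p : ℕ) ∣ n then ModularFormClass.qCoeff G (n / (p : ℕ)) else 0) =
        α (((p : ℕ) : ℕ) : ZMod M) * a p * ModularFormClass.qCoeff G n) ∧
    β (((p : ℕ) : ℕ) : ZMod M) = α (((p : ℕ) : ℕ) : ZMod M) ^ 2 * b p

/-- **Leaf QA (adelic to classical).**  From the adelic form: a nonzero classical cusp form of
weight one on `Γ₁(M)` with the twisted Hecke relations.
(`M = N₀²` for `π.level = (N₀)`; `G(z) = F(N₀ z)`, `F = y^{-1/2} φ_Ψ(g_z)` for a nonzero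
eigen-projection `φ_Ψ` of `φ` under the diagonal torus mod `N₀`; `α = ψ₁`, `β = ψ₁ ψ₂⁻¹`.) -/
def QA : Prop :=
  ∀ (π : HeckeEigensystem ℚ ℂ) (φ : A0.G ℚ → ℂ), IsHolWtOneFormFor π φ →
    ∃ (M : ℕ) (_ : NeZero M) (α β : DirichletCharacter ℂ M) (G : CuspForm (Gamma1 M) 1),
      G ≠ 0 ∧ TwistedEigen M α β (fun p => π.a (ratPrime p)) (fun p => π.b (ratPrime p)) G

/-- **Leaf QN (classical normalisation and untwisting).**  A nonzero cusp form with twisted
Hecke relations gives a normalised eigenform with the untwisted relations. -/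
def QN : Prop :=
  ∀ (M : ℕ) (_ : NeZero M) (α β : DirichletCharacter ℂ M) (a b : Nat.Primes → ℂ)
    (G : CuspForm (Gamma1 M) 1), G ≠ 0 → TwistedEigen M α β a b G →
    ∃ (N : ℕ) (_ : NeZero N) (ε : DirichletCharacter ℂ N) (f : CuspForm (Gamma1 N) 1),
      A0.IsWtOneEigenform N ε f ∧
        ∀ p : Nat.Primes, ¬ (p : ℕ) ∣ N →
          a p = ModularFormClass.qCoeff f (p : ℕ) ∧ b p = ε (((p : ℕ) : ℕ) : ZMod N)

/-! ## The top -/

/-- **QOUT from its two leaves.** -/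
theorem qOut_of_leaves (hA : QA) (hN : QN) : QOutC := by
  intro π φ hφ
  obtain ⟨M, hM, α, β, G, hG, hrel⟩ := hA π φ hφ
  exact hN M hM α β _ _ G hG hrel

/-! ## Adapter to `A0.IsCuspHolQ` -/

/-- the eigensystem `π` with its level replaced by `(N)` -/
def relevel (π : HeckeEigensystem ℚ ℂ) (N : ℕ) [NeZero N] : HeckeEigensystem ℚ ℂ where
  level := Ideal.span {((N : ℕ) : 𝓞 ℚ)}
  level_ne_bot := by
    rw [Ne, Ideal.span_singleton_eq_bot, Nat.cast_eq_zero]
    exact NeZero.ne N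
  a := π.a
  b := π.b

/-- **Adapter.**  The output of QOUT is the second alternative of `A0.notion556`, for an
eigensystem with THE SAME functions `a`, `b` (so every statement about `π.a`, `π.b`, e.g.
`BotData`, transfers by `rfl`). -/
theorem classOut_isCuspHolQ (π : HeckeEigensystem ℚ ℂ) (h : ClassOut π) :
    ∃ π' : HeckeEigensystem ℚ ℂ, π'.a = π.a ∧ π'.b = π.b ∧ A0.IsCuspHolQ ℚ π' := by
  obtain ⟨N, hN, ε, f, hf, hmatch⟩ := h
  refine ⟨relevel π N, rfl, rfl, Module.finrank_self ℚ, N, hN, ε, f, hf, le_refl _, ?_⟩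
  intro v hv
  obtain ⟨p, rfl⟩ := exists_eq_ratPrime v
  rw [natCast_mem_ratPrime_iff] at hv
  rw [absNorm_ratPrime]
  exact hmatch p hv

/-- **QOUT, in the vocabulary of the wall.** -/
theorem qOut_isCuspHolQ (hQ : QOutC) (π : HeckeEigensystem ℚ ℂ) (φ : A0.G ℚ → ℂ)
    (hφ : IsHolWtOneFormFor π φ) :
    ∃ π' : HeckeEigensystem ℚ ℂ, π'.a = π.a ∧ π'.b = π.b ∧ A0.notion556.IsCusp ℚ π' := by
  obtain ⟨π', ha, hb, h⟩ := classOut_isCuspHolQ π (hQ π φ hφ)
  exact ⟨π', ha, hb, Or.inr h⟩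

end Fermat.Agent.LT.H670.QOut

end
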