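import Fermat.Agent.LT.H670.QOut.SpecA

/-!
# Row LT, T7.QOUT (helper670): API 2 -- components of elements of `GL₂(𝔸_ℚ)`

OFF-MAIN.  Proved lemmas only.

* `finEval v : 𝔸_ℚ →+* ℚ_v`, `infEval : 𝔸_ℚ →+* ℝ`;
* `finGL v : GL₂(𝔸_ℚ) →* GL₂(ℚ_v)`, `infGL : GL₂(𝔸_ℚ) →* GL₂(ℝ)`;
* `finComp_mul`, `finComp_one`, `finComp_inv_mul`;
* `G_ext` : equality of elements by components;
* `diagQ_eq : diagQ γ = locInf (toReal γ) * finPart γ`, `finComp_finPart`, `trivAtInf_finPart`;
* `locInf_comm` : `locInf m` commutes with every element trivial at the real place;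
* `eq_locInf_mul : g = locInf (infGL g) * finOf g`, `finOf g` trivial at the real place.
-/

set_option autoImplicit false

open IsDedekindDomain NumberField AutomorphicForm
open scoped MatrixGroups

noncomputable section

namespace Fermat.Agent.LT.H670.QOut

open Fermat.Agent.LT.H556

/-- evaluation at the finite place `v` -/
def finEval (v : HeightOneSpectrum (𝓞 ℚ)) : A0.Adl ℚ →+* v.adicCompletion ℚ :=
  (RestrictedProduct.evalRingHom (fun v : HeightOneSpectrum (𝓞 ℚ) => v.adicCompletion ℚ) v).comp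
    (RingHom.snd Ainf Afin)

theorem finEval_apply (v : HeightOneSpectrum (𝓞 ℚ)) (x : A0.Adl ℚ) : finEval v x = x.2 v := rfl

/-- evaluation at the real place -/
def infEval : A0.Adl ℚ →+* ℝ :=
  ((InfinitePlace.Completion.ringEquivRealOfIsReal
      (isReal_place Rat.infinitePlace) : Rat.infinitePlace.Completion →+* ℝ).comp
    (Pi.evalRingHom (fun w : InfinitePlace ℚ => w.Completion) Rat.infinitePlace)).comp
    (RingHom.fst Ainf Afin)

theorem finComp_eq_map (v : HeightOneSpectrum (𝓞 ℚ)) (g : A0.G ℚ) :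
    A0.finComp v g = (g : Matrix (Fin 2) (Fin 2) (A0.Adl ℚ)).map (finEval v) := rfl

theorem finComp_mul (v : HeightOneSpectrum (𝓞 ℚ)) (g h : A0.G ℚ) :
    A0.finComp v (g * h) = A0.finComp v g * A0.finComp v h := by
  rw [finComp_eq_map, finComp_eq_map, finComp_eq_map, Units.val_mul, Matrix.map_mul]

theorem finComp_one (v : HeightOneSpectrum (𝓞 ℚ)) : A0.finComp v (1 : A0.G ℚ) = 1 := by
  rw [finComp_eq_map, Units.val_one, Matrix.map_one _ (map_zero _) (map_one _)]

theorem finComp_inv_mul (v : HeightOneSpectrum (𝓞 ℚ)) (g : A0.G ℚ) :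
    A0.finComp v g⁻¹ * A0.finComp v g = 1 := by
  rw [← finComp_mul, inv_mul_cancel, finComp_one]

theorem finComp_mul_inv (v : HeightOneSpectrum (𝓞 ℚ)) (g : A0.G ℚ) :
    A0.finComp v g * A0.finComp v g⁻¹ = 1 := by
  rw [← finComp_mul, mul_inv_cancel, finComp_one]

/-- `GL₂(𝔸_ℚ) → GL₂(ℚ_v)` -/
def finGL (v : HeightOneSpectrum (𝓞 ℚ)) : A0.G ℚ →* GL (Fin 2) (v.adicCompletion ℚ) :=
  Matrix.GeneralLinearGroup.map (finEval v)

theorem coe_finGL (v : HeightOneSpectrum (𝓞 ℚ)) (g : A0.G ℚ) :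
    ((finGL v g : GL (Fin 2) (v.adicCompletion ℚ)) : Matrix (Fin 2) (Fin 2) (v.adicCompletion ℚ))
      = A0.finComp v g := rfl

/-- `GL₂(𝔸_ℚ) → GL₂(ℝ)` -/
def infGL : A0.G ℚ →* GL (Fin 2) ℝ := Matrix.GeneralLinearGroup.map infEval

/-! ## Triviality at the real place -/

/-- projection to the infinite adeles -/
def infProj : A0.Adl ℚ →+* Ainf :=
  (RingHom.fst Ainf Afin).comp (adlEquiv : A0.Adl ℚ →+* Ainf × Afin)

theorem infProj_apply (x : A0.Adl ℚ) : infProj x = x.1 := rfl

theorem ainf_one_apply (w : InfinitePlace ℚ) : (1 : Ainf) w = 1 := rfl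
theorem ainf_zero_apply (w : InfinitePlace ℚ) : (0 : Ainf) w = 0 := rfl

theorem one_ainf_apply (i j : Fin 2) (w : InfinitePlace ℚ) :
    ((1 : Matrix (Fin 2) (Fin 2) Ainf) i j) w = (1 : Matrix (Fin 2) (Fin 2) w.Completion) i j := by
  by_cases hij : i = j
  · rw [hij, Matrix.one_apply_eq, Matrix.one_apply_eq]; rfl
  · rw [Matrix.one_apply_ne hij, Matrix.one_apply_ne hij]; rfl

theorem trivAtInf_iff (g : A0.G ℚ) :
    (∀ w : InfinitePlace ℚ, A0.TrivAtInf w g) ↔
      (g : Matrix (Fin 2) (Fin 2) (A0.Adl ℚ)).map infProj = 1 := by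
  constructor
  · intro h
    refine Matrix.ext fun i j => ?_
    funext w
    rw [one_ainf_apply]
    exact h w i j
  · intro h w i j
    rw [← one_ainf_apply, ← h]
    rfl

/-- equality by components -/
theorem G_ext {g h : A0.G ℚ}
    (hinf : (g : Matrix (Fin 2) (Fin 2) (A0.Adl ℚ)).map infProj
      = (h : Matrix (Fin 2) (Fin 2) (A0.Adl ℚ)).map infProj)
    (hfin : ∀ v : HeightOneSpectrum (𝓞 ℚ), A0.finComp v g = A0.finComp v h) : g = h := by
  apply Units.ext
  refine Matrix.ext fun i j => Prod.ext (congrFun (congrFun hinf i) j) ?_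
  refine FiniteAdeleRing.ext ℚ (fun v => ?_)
  exact congrFun (congrFun (hfin v) i) j

/-! ## Local elements -/

theorem map_infProj_mul (g h : A0.G ℚ) :
    ((g * h : A0.G ℚ) : Matrix (Fin 2) (Fin 2) (A0.Adl ℚ)).map infProj
      = (g : Matrix (Fin 2) (Fin 2) (A0.Adl ℚ)).map infProj
        * (h : Matrix (Fin 2) (Fin 2) (A0.Adl ℚ)).map infProj := by
  rw [Units.val_mul, Matrix.map_mul]

theorem map_infProj_one :
    ((1 : A0.G ℚ) : Matrix (Fin 2) (Fin 2) (A0.Adl ℚ)).map infProj = 1 := by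
  rw [Units.val_one, Matrix.map_one _ (map_zero _) (map_one _)]

theorem trivAtInf_mul {g h : A0.G ℚ} (hg : ∀ w : InfinitePlace ℚ, A0.TrivAtInf w g)
    (hh : ∀ w : InfinitePlace ℚ, A0.TrivAtInf w h) :
    ∀ w : InfinitePlace ℚ, A0.TrivAtInf w (g * h) := by
  rw [trivAtInf_iff] at hg hh ⊢
  rw [map_infProj_mul, hg, hh, one_mul]

theorem trivAtInf_one : ∀ w : InfinitePlace ℚ, A0.TrivAtInf w (1 : A0.G ℚ) := by
  rw [trivAtInf_iff]
  exact map_infProj_one

/-- the inverse of an element trivial at the real place is trivial at the real place -/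
theorem trivAtInf_inv {g : A0.G ℚ} (hg : ∀ w : InfinitePlace ℚ, A0.TrivAtInf w g) :
    ∀ w : InfinitePlace ℚ, A0.TrivAtInf w g⁻¹ := by
  rw [trivAtInf_iff] at hg ⊢
  have h1 := map_infProj_mul g⁻¹ g
  rw [inv_mul_cancel, map_infProj_one, hg, mul_one] at h1
  exact h1.symm

theorem trivAtInf_locFin' (v : HeightOneSpectrum (𝓞 ℚ)) (m : GL (Fin 2) (v.adicCompletion ℚ)) :
    ∀ w : InfinitePlace ℚ, A0.TrivAtInf w (locFin v m) := fun w => trivAtInf_locFin v m w

/-- `locInf m` commutes with every element trivial at the real place -/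
theorem locInf_comm (m : GL (Fin 2) ℝ) {g : A0.G ℚ}
    (hg : ∀ w : InfinitePlace ℚ, A0.TrivAtInf w g) : locInf m * g = g * locInf m := by
  rw [trivAtInf_iff] at hg
  apply G_ext
  · rw [map_infProj_mul, map_infProj_mul, hg, one_mul, mul_one]
  · intro v
    rw [finComp_mul, finComp_mul, finComp_locInf, one_mul, mul_one]

/-! ## Rational matrices -/

theorem finEval_algebraMap (v : HeightOneSpectrum (𝓞 ℚ)) (c : ℚ) :
    finEval v (algebraMap ℚ (A0.Adl ℚ) c) = algebraMap ℚ (v.adicCompletion ℚ) c := rfl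

theorem finComp_diagQ (v : HeightOneSpectrum (𝓞 ℚ)) (γ : GL (Fin 2) ℚ) :
    A0.finComp v (diagQ γ)
      = (γ : Matrix (Fin 2) (Fin 2) ℚ).map (algebraMap ℚ (v.adicCompletion ℚ)) := by
  refine Matrix.ext fun i j => ?_
  rfl

theorem finComp_finPart (v : HeightOneSpectrum (𝓞 ℚ)) (γ : GL (Fin 2) ℚ) :
    A0.finComp v (finPart γ)
      = (γ : Matrix (Fin 2) (Fin 2) ℚ).map (algebraMap ℚ (v.adicCompletion ℚ)) := by
  rw [finPart, finComp_mul, ← map_inv, finComp_locInf, one_mul, finComp_diagQ]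

/-! ## The real component -/

theorem map_infProj_locInf (m : GL (Fin 2) ℝ) :
    ((locInf m : A0.G ℚ) : Matrix (Fin 2) (Fin 2) (A0.Adl ℚ)).map infProj
      = (m : Matrix (Fin 2) (Fin 2) ℝ).map realToInf := rfl

theorem realToInf_ratCast (c : ℚ) : realToInf ((c : ℚ) : ℝ) = algebraMap ℚ Ainf c := by
  have h : (realToInf.comp (algebraMap ℚ ℝ)) = algebraMap ℚ Ainf := Subsingleton.elim _ _
  exact congrFun (congrArg DFunLike.coe h) c

theorem map_infProj_diagQ (γ : GL (Fin 2) ℚ) :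
    ((diagQ γ : A0.G ℚ) : Matrix (Fin 2) (Fin 2) (A0.Adl ℚ)).map infProj
      = ((toReal γ : GL (Fin 2) ℝ) : Matrix (Fin 2) (Fin 2) ℝ).map realToInf := by
  refine Matrix.ext fun i j => ?_
  show algebraMap ℚ Ainf (γ i j) = realToInf (algebraMap ℚ ℝ (γ i j))
  rw [← realToInf_ratCast]
  rfl

theorem diagQ_eq (γ : GL (Fin 2) ℚ) : diagQ γ = locInf (toReal γ) * finPart γ := by
  rw [finPart, mul_inv_cancel_left]

/-- the finite part of a rational matrix is trivial at the real place -/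
theorem trivAtInf_finPart (γ : GL (Fin 2) ℚ) :
    ∀ w : InfinitePlace ℚ, A0.TrivAtInf w (finPart γ) := by
  rw [trivAtInf_iff, finPart, map_infProj_mul, ← map_inv, map_infProj_locInf, map_infProj_diagQ,
    ← Matrix.map_mul, ← Units.val_mul, inv_mul_cancel, Units.val_one,
    Matrix.map_one _ (map_zero _) (map_one _)]

theorem finPart_mul (γ δ : GL (Fin 2) ℚ) : finPart (γ * δ) = finPart γ * finPart δ := by
  have h1 := diagQ_eq (γ * δ)
  rw [map_mul, diagQ_eq γ, diagQ_eq δ, map_mul, map_mul] at h1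
  have hc : finPart γ * locInf (toReal δ) = locInf (toReal δ) * finPart γ :=
    (locInf_comm (toReal δ) (trivAtInf_finPart γ)).symm
  have h2 : locInf (toReal γ) * finPart γ * (locInf (toReal δ) * finPart δ)
      = locInf (toReal γ) * locInf (toReal δ) * (finPart γ * finPart δ) := by
    rw [mul_assoc, ← mul_assoc (finPart γ), hc]
    simp only [mul_assoc]
  rw [h2] at h1
  exact (mul_left_cancel h1).symm

theorem finPart_inv (γ : GL (Fin 2) ℚ) : finPart γ⁻¹ = (finPart γ)⁻¹ := by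
  have h := finPart_mul γ⁻¹ γ
  rw [inv_mul_cancel] at h
  have h1 : finPart (1 : GL (Fin 2) ℚ) = 1 := by
    rw [finPart, map_one, map_one, map_one, inv_one, one_mul]
  rw [h1] at h
  exact eq_inv_of_mul_eq_one_left h.symm

theorem infEval_realToInf (w : InfinitePlace ℚ) (x : Ainf) (w' : InfinitePlace ℚ)
    (h : w = w') :
    (InfinitePlace.Completion.ringEquivRealOfIsReal (isReal_place w)).symm
      (InfinitePlace.Completion.ringEquivRealOfIsReal (isReal_place w') (x w')) = x w := by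
  subst h
  exact RingEquiv.symm_apply_apply _ _

theorem realToInf_infEval (x : A0.Adl ℚ) : realToInf (infEval x) = infProj x := by
  funext w
  exact infEval_realToInf w x.1 Rat.infinitePlace (Subsingleton.elim _ _)

theorem map_infProj_eq (g : A0.G ℚ) :
    (g : Matrix (Fin 2) (Fin 2) (A0.Adl ℚ)).map infProj
      = ((infGL g : GL (Fin 2) ℝ) : Matrix (Fin 2) (Fin 2) ℝ).map realToInf := by
  refine Matrix.ext fun i j => ?_
  exact (realToInf_infEval _).symm

/-- the part of `g` away from the real place -/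
def finOf (g : A0.G ℚ) : A0.G ℚ := (locInf (infGL g))⁻¹ * g

theorem eq_locInf_mul (g : A0.G ℚ) : g = locInf (infGL g) * finOf g := by
  rw [finOf, mul_inv_cancel_left]

theorem trivAtInf_finOf (g : A0.G ℚ) : ∀ w : InfinitePlace ℚ, A0.TrivAtInf w (finOf g) := by
  rw [trivAtInf_iff, finOf, map_infProj_mul, ← map_inv, map_infProj_locInf, map_infProj_eq g,
    ← Matrix.map_mul, ← Units.val_mul, inv_mul_cancel, Units.val_one,
    Matrix.map_one _ (map_zero _) (map_one _)]

end Fermat.Agent.LT.H670.QOut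

end
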