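import Fermat.Agent.LT.H670.QOut.Top3
import Fermat.Agent.LT.T7.H698.QA1
import Fermat.Agent.LT.T7.H237.QA3Hecke

/-!
# Row LT, T7.QOUT (helper670): the sub-tower QOUT is CLOSED, unconditionally

`qOutC : QOutC` -- every class datum `ClassOut π` (a holomorphic weight-one cuspidal automorphic
form `φ` on `GL₂(𝔸_ℚ)` in the A0 vocabulary, of some level, with Hecke eigenvalues `π.a`, `π.b`
away from the level) yields a classical weight-one cusp form on `Γ₁(M)` with nebentypus,
normalised, with the twisted Hecke eigen-equations (`TwistedEigen`).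

Leaves and their provers (all OFF-MAIN, complete proofs, standard axioms only):

* `QA1` (base point / sign / Iwasawa / level): helper698, `LT/T7/H698/QA1.lean` `qa1_698`;
* `QA2` (torus eigen-projection): helper237, `LT/T7/H237/QA2.lean` `qa2_237`;
* `QA3` cusp-form half: helper670, `ClassA3M.lean` `cuspOfLevelForm`;
* `QA3` Hecke half (`QA3H`): helper237, `LT/T7/H237/QA3Hecke.lean` `fnHecke237`;
* `QA4` (rescaling to `Γ₁(N²)`): helper670, `ClassA4.lean` `qA4`;
* `QN` (classical normalisation / untwisting): helper670, `ClassN.lean` `qN`.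
-/

set_option autoImplicit false

namespace Fermat.Agent.LT.H670.QOut

open Fermat.Agent.LT.H556

/-- The Hecke half of `QA3` (helper237's `fnHecke237`). -/
theorem qa3h : QA3H := by
  intro N hN a b ψ₁ ψ₂ φ₂ hφ hT
  have : NeZero N := hN
  exact Fermat.Agent.LT.T7.H237.fnHecke237 hφ hT

/-- Leaf `QA3`, unconditional. -/
theorem qa3 : QA3 := qa3_of_hecke qa3h

/-- **T7.QOUT, unconditional.** -/
theorem qOutC : QOutC :=
  qOut_of_hecke Fermat.Agent.LT.T7.H698.qa1_698 Fermat.Agent.LT.T7.H237.qa2_237 qa3h

end Fermat.Agent.LT.H670.QOut
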