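import Mathlib
import Fermat.Agent.LT.H556.A0
import Fermat.Prelude.Def_LanglandsTunnell_RealizationDictionary

/-!
# Row LT, tower T7, sub-tower QOUT (helper670): API of local elements of `GL₂(𝔸_ℚ)`

OFF-MAIN.  Definitions and proved lemmas only.

* `locInf : GL₂(ℝ) →* GL₂(𝔸_ℚ)` -- the element supported at the real place;
* `locFin v : GL₂(ℚ_v) →* GL₂(𝔸_ℚ)` -- the element supported at the finite place `v`;
* `diagQ : GL₂(ℚ) →* GL₂(𝔸_ℚ)` -- the diagonal embedding (the one of `A0.IsSph0CuspFormFor.left_inv`);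
* `finPart γ = (γ_∞)⁻¹ γ` -- the finite part of a rational matrix.
-/

set_option autoImplicit false

open IsDedekindDomain NumberField AutomorphicForm
open scoped MatrixGroups

noncomputable section

namespace Fermat.Agent.LT.H670.QOut

open Fermat.Agent.LT.H556

/-- the finite adeles of `ℚ` -/
abbrev Afin : Type := FiniteAdeleRing (𝓞 ℚ) ℚ

/-- the infinite adeles of `ℚ` -/
abbrev Ainf : Type := InfiniteAdeleRing ℚ

theorem isReal_place (w : InfinitePlace ℚ) : w.IsReal := by
  rw [Subsingleton.elim w Rat.infinitePlace]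
  exact Rat.isReal_infinitePlace

/-- `ℝ → ℚ_∞` -/
def realToInf : ℝ →+* Ainf :=
  RingHom.pi fun w =>
    ((InfinitePlace.Completion.ringEquivRealOfIsReal (isReal_place w)).symm : ℝ →+* w.Completion)

/-- the ring isomorphism `𝔸_ℚ = ℚ_∞ × 𝔸_f` (definitional) -/
def adlEquiv : A0.Adl ℚ ≃+* Ainf × Afin := RingEquiv.refl _

/-- pairing of matrices -/
def pairMat (a : Matrix (Fin 2) (Fin 2) Ainf) (b : Matrix (Fin 2) (Fin 2) Afin) :
    Matrix (Fin 2) (Fin 2) (A0.Adl ℚ) := fun i j => adlEquiv.symm (a i j, b i j)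

theorem pairMat_one : pairMat 1 1 = 1 := by
  ext i j
  by_cases h : i = j <;> simp [pairMat, Matrix.one_apply, h]

theorem pairMat_mul (a a' : Matrix (Fin 2) (Fin 2) Ainf) (b b' : Matrix (Fin 2) (Fin 2) Afin) :
    pairMat (a * a') (b * b') = pairMat a b * pairMat a' b' := by
  ext i j
  simp only [pairMat, Matrix.mul_apply, Fin.sum_univ_two]
  rw [← map_mul, ← map_mul, ← map_add]
  rfl

theorem pairMat_fst (a : Matrix (Fin 2) (Fin 2) Ainf) (b : Matrix (Fin 2) (Fin 2) Afin)
    (i j : Fin 2) : (pairMat a b i j).1 = a i j := rfl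

theorem pairMat_snd (a : Matrix (Fin 2) (Fin 2) Ainf) (b : Matrix (Fin 2) (Fin 2) Afin)
    (i j : Fin 2) : (pairMat a b i j).2 = b i j := rfl

/-- the matrix over `𝔸_ℚ` with real component `m` and finite components `1` -/
def matInf : Matrix (Fin 2) (Fin 2) ℝ →* Matrix (Fin 2) (Fin 2) (A0.Adl ℚ) where
  toFun m := pairMat (m.map realToInf) (1 : Matrix (Fin 2) (Fin 2) Afin)
  map_one' := by
    rw [Matrix.map_one _ (map_zero _) (map_one _)]; exact pairMat_one
  map_mul' m m' := by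
    rw [Matrix.map_mul, ← pairMat_mul, one_mul]

/-- `GL₂(ℝ) → GL₂(𝔸_ℚ)`: the element supported at the real place -/
def locInf : GL (Fin 2) ℝ →* A0.G ℚ := Units.map matInf

open Classical in
/-- the finite adele with component `x` at `v` and the integer `c` elsewhere -/
def updFin (v : HeightOneSpectrum (𝓞 ℚ)) (c : ℤ) (x : v.adicCompletion ℚ) : Afin :=
  RestrictedProduct.mk (Function.update (fun v' => ((c : ℤ) : v'.adicCompletion ℚ)) v x) (by
    filter_upwards [show {v}ᶜ ∈ Filter.cofinite by simp] with v' hv'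
    rw [Function.update_of_ne (by simpa using hv')]
    exact intCast_mem _ c)

theorem updFin_same (v : HeightOneSpectrum (𝓞 ℚ)) (c : ℤ) (x : v.adicCompletion ℚ) :
    updFin v c x v = x := by
  classical
  exact Function.update_self (f := fun v' : HeightOneSpectrum (𝓞 ℚ) =>
    ((c : ℤ) : v'.adicCompletion ℚ)) v x

theorem updFin_ne (v v' : HeightOneSpectrum (𝓞 ℚ)) (h : v' ≠ v) (c : ℤ) (x : v.adicCompletion ℚ) :
    updFin v c x v' = (c : v'.adicCompletion ℚ) := by
  classical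
  exact Function.update_of_ne (f := fun v' : HeightOneSpectrum (𝓞 ℚ) =>
    ((c : ℤ) : v'.adicCompletion ℚ)) h x

/-- the finite adelic matrix with component `m` at `v`, `1` elsewhere -/
def finMat (v : HeightOneSpectrum (𝓞 ℚ)) (m : Matrix (Fin 2) (Fin 2) (v.adicCompletion ℚ)) :
    Matrix (Fin 2) (Fin 2) Afin :=
  fun i j => updFin v (if i = j then 1 else 0) (m i j)

theorem finMat_apply_same (v : HeightOneSpectrum (𝓞 ℚ))
    (m : Matrix (Fin 2) (Fin 2) (v.adicCompletion ℚ)) (i j : Fin 2) :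
    finMat v m i j v = m i j := updFin_same _ _ _

theorem finMat_apply_ne (v v' : HeightOneSpectrum (𝓞 ℚ)) (h : v' ≠ v)
    (m : Matrix (Fin 2) (Fin 2) (v.adicCompletion ℚ)) (i j : Fin 2) :
    finMat v m i j v' = (1 : Matrix (Fin 2) (Fin 2) (v'.adicCompletion ℚ)) i j := by
  rw [finMat, updFin_ne _ _ h, Matrix.one_apply]
  split_ifs <;> simp

theorem afin_one_apply (v : HeightOneSpectrum (𝓞 ℚ)) : (1 : Afin) v = 1 := rfl
theorem afin_zero_apply (v : HeightOneSpectrum (𝓞 ℚ)) : (0 : Afin) v = 0 := rfl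
theorem afin_mul_apply (x y : Afin) (v : HeightOneSpectrum (𝓞 ℚ)) : (x * y) v = x v * y v := rfl
theorem afin_add_apply (x y : Afin) (v : HeightOneSpectrum (𝓞 ℚ)) : (x + y) v = x v + y v := rfl

theorem finMat_one (v : HeightOneSpectrum (𝓞 ℚ)) : finMat v 1 = 1 := by
  refine Matrix.ext fun i j => FiniteAdeleRing.ext ℚ (fun v' => ?_)
  by_cases h : v' = v
  · subst h
    rw [finMat_apply_same]
    by_cases hij : i = j <;> simp [Matrix.one_apply, hij, afin_one_apply, afin_zero_apply]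
  · rw [finMat_apply_ne _ _ h]
    by_cases hij : i = j <;> simp [Matrix.one_apply, hij, afin_one_apply, afin_zero_apply]

theorem finMat_mul (v : HeightOneSpectrum (𝓞 ℚ))
    (m m' : Matrix (Fin 2) (Fin 2) (v.adicCompletion ℚ)) :
    finMat v (m * m') = finMat v m * finMat v m' := by
  refine Matrix.ext fun i j => FiniteAdeleRing.ext ℚ (fun v' => ?_)
  simp only [Matrix.mul_apply, Fin.sum_univ_two, afin_add_apply, afin_mul_apply]
  by_cases h : v' = v
  · subst h
    simp [finMat_apply_same, Matrix.mul_apply, Fin.sum_univ_two]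
  · simp only [finMat_apply_ne _ _ h]
    have := congrFun (congrFun (one_mul (1 : Matrix (Fin 2) (Fin 2) (v'.adicCompletion ℚ))) i) j
    rw [Matrix.mul_apply, Fin.sum_univ_two] at this
    exact this.symm

/-- the matrix over `𝔸_ℚ` with component `m` at `v` and `1` elsewhere -/
def matFin (v : HeightOneSpectrum (𝓞 ℚ)) :
    Matrix (Fin 2) (Fin 2) (v.adicCompletion ℚ) →* Matrix (Fin 2) (Fin 2) (A0.Adl ℚ) where
  toFun m := pairMat 1 (finMat v m)
  map_one' := by rw [finMat_one]; exact pairMat_one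
  map_mul' m m' := by rw [finMat_mul, ← pairMat_mul, one_mul]

/-- `GL₂(ℚ_v) → GL₂(𝔸_ℚ)` -/
def locFin (v : HeightOneSpectrum (𝓞 ℚ)) : GL (Fin 2) (v.adicCompletion ℚ) →* A0.G ℚ :=
  Units.map (matFin v)

/-- the diagonal embedding -/
def diagQ : GL (Fin 2) ℚ →* A0.G ℚ :=
  Matrix.GeneralLinearGroup.map (algebraMap ℚ (A0.Adl ℚ))

/-- `GL₂(ℚ) → GL₂(ℝ)` -/
def toReal : GL (Fin 2) ℚ →* GL (Fin 2) ℝ :=
  Matrix.GeneralLinearGroup.map (algebraMap ℚ ℝ)

/-- the finite part of a rational matrix -/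
def finPart (γ : GL (Fin 2) ℚ) : A0.G ℚ := (locInf (toReal γ))⁻¹ * diagQ γ

/-! ## Components -/

theorem locInf_val (m : GL (Fin 2) ℝ) (i j : Fin 2) :
    ((locInf m : A0.G ℚ) : Matrix (Fin 2) (Fin 2) (A0.Adl ℚ)) i j
      = adlEquiv.symm (realToInf (m i j), (1 : Matrix (Fin 2) (Fin 2) Afin) i j) := rfl

theorem locFin_val (v : HeightOneSpectrum (𝓞 ℚ)) (m : GL (Fin 2) (v.adicCompletion ℚ))
    (i j : Fin 2) :
    ((locFin v m : A0.G ℚ) : Matrix (Fin 2) (Fin 2) (A0.Adl ℚ)) i j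
      = adlEquiv.symm ((1 : Matrix (Fin 2) (Fin 2) Ainf) i j, finMat v m i j) := rfl

theorem finComp_locInf (v : HeightOneSpectrum (𝓞 ℚ)) (m : GL (Fin 2) ℝ) :
    A0.finComp v (locInf m) = 1 := by
  refine Matrix.ext fun i j => ?_
  show ((1 : Matrix (Fin 2) (Fin 2) Afin) i j) v = _
  by_cases hij : i = j <;> simp [Matrix.one_apply, hij, afin_one_apply, afin_zero_apply]

theorem trivAtFin_locInf (v : HeightOneSpectrum (𝓞 ℚ)) (m : GL (Fin 2) ℝ) :
    A0.TrivAtFin v (locInf m) := finComp_locInf v m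

theorem finComp_locFin_same (v : HeightOneSpectrum (𝓞 ℚ)) (m : GL (Fin 2) (v.adicCompletion ℚ)) :
    A0.finComp v (locFin v m) = m := by
  refine Matrix.ext fun i j => ?_
  exact finMat_apply_same v _ i j

theorem finComp_locFin_ne (v v' : HeightOneSpectrum (𝓞 ℚ)) (h : v' ≠ v)
    (m : GL (Fin 2) (v.adicCompletion ℚ)) :
    A0.finComp v' (locFin v m) = 1 := by
  refine Matrix.ext fun i j => ?_
  exact finMat_apply_ne v v' h _ i j

theorem trivAtInf_locFin (v : HeightOneSpectrum (𝓞 ℚ)) (m : GL (Fin 2) (v.adicCompletion ℚ))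
    (w : InfinitePlace ℚ) : A0.TrivAtInf w (locFin v m) := by
  intro i j
  show ((1 : Matrix (Fin 2) (Fin 2) Ainf) i j) w = _
  by_cases hij : i = j <;> simp [Matrix.one_apply, hij] <;> rfl

theorem isLocalAtFin_locFin (v : HeightOneSpectrum (𝓞 ℚ)) (m : GL (Fin 2) (v.adicCompletion ℚ)) :
    A0.IsLocalAtFin v (locFin v m) :=
  ⟨trivAtInf_locFin v m, fun v' h => finComp_locFin_ne v v' h m⟩

theorem isLocalAtInf_locInf (w : InfinitePlace ℚ) (m : GL (Fin 2) ℝ) :
    A0.IsLocalAtInf w (locInf m) :=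
  ⟨fun w' h => absurd (Subsingleton.elim w' w) h, fun v => trivAtFin_locInf v m⟩


theorem extEmb_realToInf (w : InfinitePlace ℚ) (r : ℝ) :
    InfinitePlace.Completion.extensionEmbedding w ((realToInf r : InfiniteAdeleRing ℚ) w)
      = (r : ℂ) := by
  have h := InfinitePlace.Completion.extensionEmbeddingOfIsReal_apply (isReal_place w)
    ((InfinitePlace.Completion.ringEquivRealOfIsReal (isReal_place w)).symm r)
  have h2 : InfinitePlace.Completion.extensionEmbeddingOfIsReal (isReal_place w)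
      ((InfinitePlace.Completion.ringEquivRealOfIsReal (isReal_place w)).symm r) = r :=
    (InfinitePlace.Completion.ringEquivRealOfIsReal (isReal_place w)).apply_symm_apply r
  rw [h2] at h
  exact h.symm

/-- the real component of `locInf m` is `m` -/
theorem infComp_locInf (w : InfinitePlace ℚ) (m : GL (Fin 2) ℝ) :
    A0.infComp w (locInf m)
      = (m : Matrix (Fin 2) (Fin 2) ℝ).map (fun r : ℝ => (r : ℂ)) := by
  refine Matrix.ext fun i j => ?_
  exact extEmb_realToInf w (m i j)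

/-- elements at the real place commute with elements trivial at the real place -/
theorem locInf_comm_locFin (m : GL (Fin 2) ℝ) (v : HeightOneSpectrum (𝓞 ℚ))
    (m' : GL (Fin 2) (v.adicCompletion ℚ)) :
    locInf m * locFin v m' = locFin v m' * locInf m := by
  apply Units.ext
  show matInf m * matFin v m' = matFin v m' * matInf m
  show pairMat _ _ * pairMat _ _ = pairMat _ _ * pairMat _ _
  rw [← pairMat_mul, ← pairMat_mul, one_mul, mul_one, one_mul, mul_one]

/-! ## The finite places of `ℚ` (same content as `H556/DictHol.lean`) -/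

theorem natGenerator_ratPrime (p : Nat.Primes) :
    Rat.HeightOneSpectrum.natGenerator (ratPrime p) = (p : ℕ) :=
  congrArg Subtype.val
    (Equiv.apply_symm_apply (Rat.HeightOneSpectrum.primesEquiv (R := 𝓞 ℚ)) p)

theorem mem_ratPrime_iff (p : Nat.Primes) (x : 𝓞 ℚ) :
    x ∈ (ratPrime p).asIdeal ↔ ((p : ℕ) : 𝓞 ℚ) ∣ x := by
  have h1 : x ∈ (ratPrime p).asIdeal ↔
      Rat.IsIntegralClosure.intEquiv (𝓞 ℚ) x ∈
        (ratPrime p).asIdeal.map (Rat.IsIntegralClosure.intEquiv (𝓞 ℚ)) :=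
    (Ideal.apply_mem_of_equiv_iff (f := Rat.IsIntegralClosure.intEquiv (𝓞 ℚ))).symm
  rw [h1, ← Rat.HeightOneSpectrum.span_natGenerator, natGenerator_ratPrime,
    Ideal.mem_span_singleton]
  constructor
  · intro h
    have h2 := map_dvd (Rat.IsIntegralClosure.intEquiv (𝓞 ℚ)).symm h
    rw [RingEquiv.symm_apply_apply, map_natCast] at h2
    exact h2
  · intro h
    have h2 := map_dvd (Rat.IsIntegralClosure.intEquiv (𝓞 ℚ)) h
    rw [map_natCast] at h2
    exact h2

theorem ratPrime_asIdeal (p : Nat.Primes) :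
    (ratPrime p).asIdeal = Ideal.span {((p : ℕ) : 𝓞 ℚ)} := by
  ext x
  rw [mem_ratPrime_iff, Ideal.mem_span_singleton]

theorem natCast_mem_ratPrime_iff (p : Nat.Primes) (n : ℕ) :
    (n : 𝓞 ℚ) ∈ (ratPrime p).asIdeal ↔ (p : ℕ) ∣ n := by
  have h1 : (n : 𝓞 ℚ) ∈ (ratPrime p).asIdeal ↔
      Rat.IsIntegralClosure.intEquiv (𝓞 ℚ) (n : 𝓞 ℚ) ∈
        (ratPrime p).asIdeal.map (Rat.IsIntegralClosure.intEquiv (𝓞 ℚ)) :=
    (Ideal.apply_mem_of_equiv_iff (f := Rat.IsIntegralClosure.intEquiv (𝓞 ℚ))).symm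
  rw [h1, map_natCast, ← Rat.HeightOneSpectrum.natGenerator_dvd_iff, natGenerator_ratPrime]

theorem absNorm_ratPrime (p : Nat.Primes) :
    Ideal.absNorm (ratPrime p).asIdeal = (p : ℕ) := by
  rw [ratPrime_asIdeal, Ideal.absNorm_span_singleton, Algebra.norm_natCast,
    NumberField.RingOfIntegers.rank, Module.finrank_self]
  simp

/-- every finite place of `ℚ` is `ratPrime p` -/
theorem exists_eq_ratPrime (v : HeightOneSpectrum (𝓞 ℚ)) : ∃ p : Nat.Primes, v = ratPrime p :=
  ⟨Rat.HeightOneSpectrum.primesEquiv (R := 𝓞 ℚ) v,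
    ((Rat.HeightOneSpectrum.primesEquiv (R := 𝓞 ℚ)).symm_apply_apply v).symm⟩

end Fermat.Agent.LT.H670.QOut

end
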