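import Fermat.Agent.LT.H670.QOut.Api2

/-!
# Row LT, T7.QOUT (helper670): API at the real place -- Iwasawa decomposition, slash formula

OFF-MAIN.  Proved lemmas only.

* `iwasawa` : for `m ∈ GL₂(ℝ)`, `det m > 0`:
  `m * gzMat z = gzMat (m • z) * scalR ‖cz+d‖ * kTheta θ`, `e^{iθ} = ‖cz+d‖ / (cz+d)`.
* `slash_formula` : for `γ ∈ GL₂(ℚ)`, `det γ > 0`, `g` trivial at the real place:
  `famFn φ ((finPart γ)⁻¹ * g) z = √(det γ) * (famFn φ g ∣[1] toReal γ) z`.
-/

set_option autoImplicit false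

open IsDedekindDomain NumberField AutomorphicForm
open UpperHalfPlane ModularForm
open scoped MatrixGroups ModularForm

noncomputable section

namespace Fermat.Agent.LT.H670.QOut

open Fermat.Agent.LT.H556

theorem val_gzMat (z : ℍ) :
    ((gzMat z : GL (Fin 2) ℝ) : Matrix (Fin 2) (Fin 2) ℝ) = !![z.im, z.re; 0, 1] := rfl

theorem val_kTheta (θ : ℝ) :
    ((kTheta θ : GL (Fin 2) ℝ) : Matrix (Fin 2) (Fin 2) ℝ)
      = !![Real.cos θ, Real.sin θ; -Real.sin θ, Real.cos θ] := rfl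

theorem val_scalR (r : ℝ) (hr : 0 < r) :
    ((scalR r hr : GL (Fin 2) ℝ) : Matrix (Fin 2) (Fin 2) ℝ) = !![r, 0; 0, r] := rfl

/-- **Iwasawa decomposition** of `m g_z`. -/
theorem iwasawa (m : GL (Fin 2) ℝ) (hdet : 0 < m.det.val) (z : ℍ) :
    ∃ (r : ℝ) (hr : 0 < r) (θ : ℝ),
      m * gzMat z = gzMat (m • z) * scalR r hr * kTheta θ ∧
      r = ‖denom m z‖ ∧
      Complex.exp (Complex.I * ((θ : ℝ) : ℂ)) * denom m z = ((r : ℝ) : ℂ) := by
  set w : ℂ := denom m z with hw
  have hw0 : w ≠ 0 := denom_ne_zero m z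
  have hr : 0 < ‖w‖ := norm_pos_iff.mpr hw0
  have hcos : Real.cos (-Complex.arg w) = w.re / ‖w‖ := by
    rw [Real.cos_neg, Complex.cos_arg hw0]
  have hsin : Real.sin (-Complex.arg w) = -(w.im / ‖w‖) := by
    rw [Real.sin_neg, Complex.sin_arg]
  have hwre : w.re = m 1 0 * z.re + m 1 1 := by
    simp [hw, denom, Complex.add_re, Complex.mul_re]
  have hwim : w.im = m 1 0 * z.im := by
    simp [hw, denom, Complex.add_im, Complex.mul_im]
  -- the complex identity `z' w = a z + b`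
  have hz' : ((m • z : ℍ) : ℂ) * w = num m z := by
    rw [coe_smul_of_det_pos hdet, hw, div_mul_cancel₀ _ hw0]
  have hre := congrArg Complex.re hz'
  have him := congrArg Complex.im hz'
  simp only [Complex.mul_re, Complex.mul_im, num, Complex.add_re, Complex.add_im,
    Complex.ofReal_re, Complex.ofReal_im, UpperHalfPlane.coe_re, UpperHalfPlane.coe_im,
    zero_mul, sub_zero, add_zero] at hre him
  refine ⟨‖w‖, hr, -Complex.arg w, ?_, rfl, ?_⟩
  · apply Units.ext
    have hne : ‖w‖ ≠ 0 := hr.ne'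
    ext i j
    rw [Units.val_mul, Units.val_mul, Units.val_mul, val_gzMat, val_gzMat, val_scalR, val_kTheta,
      hcos, hsin]
    fin_cases i <;> fin_cases j <;>
      simp [Matrix.mul_apply, Fin.sum_univ_two] <;> field_simp <;> linarith
  · have h := Complex.norm_mul_exp_arg_mul_I w
    have e : Complex.exp (Complex.I * (((-Complex.arg w : ℝ)) : ℂ)) * w
        = Complex.exp (Complex.I * (((-Complex.arg w : ℝ)) : ℂ)) *
          (((‖w‖ : ℝ) : ℂ) * Complex.exp ((Complex.arg w : ℂ) * Complex.I)) := by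
      rw [h]
    rw [e, mul_left_comm, ← Complex.exp_add]
    have : Complex.I * (((-Complex.arg w : ℝ)) : ℂ) + (Complex.arg w : ℂ) * Complex.I = 0 := by
      push_cast; ring
    rw [this, Complex.exp_zero, mul_one]

theorem famFn_apply (φ : A0.G ℚ → ℂ) (g : A0.G ℚ) (z : ℍ) :
    famFn φ g z = (((Real.sqrt z.im : ℝ) : ℂ))⁻¹ * φ (locInf (gzMat z) * g) := rfl

theorem sqrt_im_ne_zero (z : ℍ) : ((Real.sqrt z.im : ℝ) : ℂ) ≠ 0 := by
  have : Real.sqrt z.im ≠ 0 := (Real.sqrt_pos.mpr z.im_pos).ne'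
  exact_mod_cast this

/-- **Slash formula**: left translation by a rational matrix of positive determinant. -/
theorem slash_formula (φ : A0.G ℚ → ℂ)
    (hleft : ∀ (γ : GL (Fin 2) ℚ) (g : A0.G ℚ), φ (diagQ γ * g) = φ g)
    (hscal : ∀ (r : ℝ) (hr : 0 < r) (g : A0.G ℚ), φ (g * locInf (scalR r hr)) = φ g)
    (hwt : ∀ (θ : ℝ) (g : A0.G ℚ),
      φ (g * locInf (kTheta θ)) = Complex.exp (Complex.I * ((θ : ℝ) : ℂ)) * φ g)
    (γ : GL (Fin 2) ℚ) (hdet : 0 < (toReal γ).det.val) (g : A0.G ℚ)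
    (hg : ∀ w : InfinitePlace ℚ, A0.TrivAtInf w g) (z : ℍ) :
    famFn φ ((finPart γ)⁻¹ * g) z
      = ((Real.sqrt (toReal γ).det.val : ℝ) : ℂ) * ((famFn φ g) ∣[(1 : ℤ)] toReal γ) z := by
  set m := toReal γ with hm
  obtain ⟨r, hr, θ, hiw, hrn, hexp⟩ := iwasawa m hdet z
  set z' := m • z with hz'
  have hw0 : denom m z ≠ 0 := denom_ne_zero m z
  -- the group identity
  have hfin := trivAtInf_inv (trivAtInf_finPart γ)
  have hkey : φ (locInf (gzMat z') * g) * Complex.exp (Complex.I * ((θ : ℝ) : ℂ))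
      = φ (locInf (gzMat z) * ((finPart γ)⁻¹ * g)) := by
    have h1 : locInf (gzMat z') * g * locInf (scalR r hr) * locInf (kTheta θ)
        = diagQ γ * ((finPart γ)⁻¹ * (locInf (gzMat z) * g)) := by
      rw [diagQ_eq γ, ← hm]
      have e1 : locInf (gzMat z') * g * locInf (scalR r hr) * locInf (kTheta θ)
          = locInf (gzMat z' * scalR r hr * kTheta θ) * g := by
        rw [map_mul, map_mul, mul_assoc (locInf (gzMat z')) g, ← locInf_comm _ hg,
          mul_assoc (locInf (gzMat z')), mul_assoc (locInf (scalR r hr)), ← locInf_comm _ hg]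
        simp only [mul_assoc]
      rw [e1, ← hiw, map_mul]
      simp only [mul_assoc]
      rw [mul_inv_cancel_left]
    have h2 := hwt θ (locInf (gzMat z') * g * locInf (scalR r hr))
    rw [h1, hleft, hscal] at h2
    rw [mul_comm, ← h2, ← mul_assoc, ← mul_assoc, ← locInf_comm _ hfin]
  -- the analytic identity
  have hσ : UpperHalfPlane.σ m = ContinuousAlgEquiv.refl ℝ ℂ := by
    rw [UpperHalfPlane.σ, if_pos hdet]
  have him : z'.im = m.det.val * z.im / r ^ 2 := by
    rw [hz', UpperHalfPlane.im_smul_eq_div_normSq, abs_of_pos hdet, hrn, Complex.sq_norm]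
  have hsqrt : Real.sqrt z'.im = Real.sqrt m.det.val * Real.sqrt z.im / r := by
    rw [him, Real.sqrt_div (mul_nonneg hdet.le z.im_pos.le), Real.sqrt_sq hr.le,
      Real.sqrt_mul hdet.le]
  rw [ModularForm.slash_apply, hσ, famFn_apply, famFn_apply, ← hkey, hsqrt]
  have hrC : ((r : ℝ) : ℂ) ≠ 0 := by exact_mod_cast hr.ne'
  have hyC := sqrt_im_ne_zero z
  have hdC : ((Real.sqrt m.det.val : ℝ) : ℂ) ≠ 0 := by
    have : Real.sqrt m.det.val ≠ 0 := (Real.sqrt_pos.mpr hdet).ne'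
    exact_mod_cast this
  have hexp' : Complex.exp (Complex.I * ((θ : ℝ) : ℂ)) = ((r : ℝ) : ℂ) / denom m z := by
    rw [eq_div_iff hw0, hexp]
  rw [hexp']
  simp only [ContinuousAlgEquiv.refl_apply, sub_self, zpow_zero, mul_one, zpow_neg, zpow_one]
  push_cast
  field_simp
  rfl

end Fermat.Agent.LT.H670.QOut

end
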