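import Fermat.Agent.LT.H670.QOut.ApiInf

/-!
# Row LT, T7.QOUT (helper670): the CUSP-FORM HALF of leaf `QA3`

`cuspOfLevelForm : IsLevelForm N a b φ → CuspForm (Gamma N) 1` with underlying function
`famFn φ 1` (`z ↦ y^{-1/2} φ(g_z)`), and `cuspOfLevelForm_ne_zero`.  OFF-MAIN.

Modularity: slash formula + right `U(N)`-invariance.  Cusps: `|famFn φ g z| ≤ C / √y` for every
member of the family (no cuspidality hypothesis on `φ`).
-/

set_option autoImplicit false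

open IsDedekindDomain NumberField AutomorphicForm
open UpperHalfPlane ModularForm CongruenceSubgroup Matrix.SpecialLinearGroup
open scoped MatrixGroups ModularForm Manifold

noncomputable section

namespace Fermat.Agent.LT.H670.QOut

open Fermat.Agent.LT.H556

/-- every member of the family tends to `0` at `i∞` -/
theorem isZeroAtImInfty_famFn (φ : A0.G ℚ → ℂ) (hbdd : ∃ C : ℝ, ∀ g : A0.G ℚ, ‖φ g‖ ≤ C)
    (g : A0.G ℚ) : IsZeroAtImInfty (famFn φ g) := by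
  obtain ⟨C, hC⟩ := hbdd
  rw [isZeroAtImInfty_iff]
  intro ε hε
  set C₁ : ℝ := |C| + 1 with hC₁
  have hC₁pos : 0 < C₁ := by positivity
  refine ⟨(C₁ / ε) ^ 2, fun z hz => ?_⟩
  have hy : 0 < z.im := z.im_pos
  have hsq : C₁ / ε ≤ Real.sqrt z.im := by
    rw [← Real.sqrt_sq (div_pos hC₁pos hε).le]
    exact Real.sqrt_le_sqrt hz
  have hsqpos : 0 < Real.sqrt z.im := Real.sqrt_pos.mpr hy
  rw [famFn_apply, norm_mul, norm_inv, Complex.norm_real, Real.norm_eq_abs,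
    abs_of_pos hsqpos]
  have h1 : ‖φ (locInf (gzMat z) * g)‖ ≤ C₁ := (hC _).trans ((le_abs_self C).trans (by linarith))
  calc (Real.sqrt z.im)⁻¹ * ‖φ (locInf (gzMat z) * g)‖
      ≤ (Real.sqrt z.im)⁻¹ * C₁ := by gcongr
    _ = C₁ / Real.sqrt z.im := by ring
    _ ≤ ε := by
        rw [div_le_iff₀ hsqpos]
        have := (div_le_iff₀ hε).mp hsq
        linarith

theorem toReal_mapGL (σ : SL(2, ℤ)) : toReal (mapGL ℚ σ) = mapGL ℝ σ := by
  apply Units.ext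
  ext i j
  simp [toReal]

theorem det_mapGL_real (σ : SL(2, ℤ)) : ((mapGL ℝ σ : GL (Fin 2) ℝ).det : ℝˣ).val = 1 := by
  simp

/-- the slash action of `SL₂(ℤ)` on the family -/
theorem famFn_slash_SL (φ : A0.G ℚ → ℂ)
    (hleft : ∀ (γ : GL (Fin 2) ℚ) (g : A0.G ℚ), φ (diagQ γ * g) = φ g)
    (hscal : ∀ (r : ℝ) (hr : 0 < r) (g : A0.G ℚ), φ (g * locInf (scalR r hr)) = φ g)
    (hwt : ∀ (θ : ℝ) (g : A0.G ℚ),
      φ (g * locInf (kTheta θ)) = Complex.exp (Complex.I * ((θ : ℝ) : ℂ)) * φ g)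
    (σ : SL(2, ℤ)) (g : A0.G ℚ) (hg : ∀ w : InfinitePlace ℚ, A0.TrivAtInf w g) :
    (famFn φ g) ∣[(1 : ℤ)] (mapGL ℝ σ : GL (Fin 2) ℝ)
      = famFn φ ((finPart (mapGL ℚ σ))⁻¹ * g) := by
  funext z
  have hdet : 0 < (toReal (mapGL ℚ σ)).det.val := by
    rw [toReal_mapGL, det_mapGL_real]; exact one_pos
  have h := slash_formula φ hleft hscal hwt (mapGL ℚ σ) hdet g hg z
  rw [toReal_mapGL, det_mapGL_real, Real.sqrt_one, Complex.ofReal_one, one_mul] at h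
  exact h.symm

/-- integers divisible by `N` lie in the closure of `(N)` -/
theorem intCast_mem_idealClosure (N : ℕ) (v : HeightOneSpectrum (𝓞 ℚ)) {k : ℤ}
    (hk : (N : ℤ) ∣ k) : ((k : ℤ) : v.adicCompletion ℚ) ∈ A0.idealClosure (lvl N) v := by
  obtain ⟨k', rfl⟩ := hk
  refine subset_closure ⟨((N : ℕ) : 𝓞 ℚ) * ((k' : ℤ) : 𝓞 ℚ), ?_, ?_⟩
  · exact Ideal.mul_mem_right _ _ (Ideal.subset_span (Set.mem_singleton _))
  · simp only [map_mul, map_natCast, map_intCast]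
    push_cast
    rfl

theorem Gamma_entry_dvd (N : ℕ) {σ : SL(2, ℤ)} (hσ : σ ∈ Gamma N) (i j : Fin 2) :
    (N : ℤ) ∣ σ i j - (1 : Matrix (Fin 2) (Fin 2) ℤ) i j := by
  obtain ⟨h00, h01, h10, h11⟩ := Gamma_mem.mp hσ
  rw [← ZMod.intCast_zmod_eq_zero_iff_dvd]
  fin_cases i <;> fin_cases j <;> simp [h00, h01, h10, h11]

theorem finPart_sub_one_mem (N : ℕ) {σ : SL(2, ℤ)} (hσ : σ ∈ Gamma N)
    (v : HeightOneSpectrum (𝓞 ℚ)) (i j : Fin 2) :
    (A0.finComp v (finPart (mapGL ℚ σ)) - 1) i j ∈ A0.idealClosure (lvl N) v := by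
  have h := intCast_mem_idealClosure N v (Gamma_entry_dvd N hσ i j)
  have e : (A0.finComp v (finPart (mapGL ℚ σ)) - 1) i j
      = ((σ i j - (1 : Matrix (Fin 2) (Fin 2) ℤ) i j : ℤ) : v.adicCompletion ℚ) := by
    rw [finComp_finPart, Matrix.sub_apply, Matrix.map_apply]
    by_cases hij : i = j
    · subst hij
      simp
    · simp [Matrix.one_apply_ne hij]
  rw [e]
  exact h

/-- the finite part of an element of `Γ(N)` is in the level group `U(N)` -/
theorem inLevel_finPart_Gamma (N : ℕ) {σ : SL(2, ℤ)} (hσ : σ ∈ Gamma N) :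
    A0.InLevelGroup (lvl N) (finPart (mapGL ℚ σ)) := by
  refine ⟨trivAtInf_finPart _, fun v i j => ⟨finPart_sub_one_mem N hσ v i j, ?_⟩⟩
  rw [← finPart_inv, ← map_inv]
  exact finPart_sub_one_mem N ((Gamma N).inv_mem hσ) v i j

/-- **The classical function of a form of level `U(N)` is a cusp form on `Γ(N)`.** -/
def cuspOfLevelForm (N : ℕ) [NeZero N] (a b : Nat.Primes → ℂ) (φ : A0.G ℚ → ℂ)
    (hφ : IsLevelForm N a b φ) : CuspForm (Gamma N) 1 where
  toFun := famFn φ 1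
  slash_action_eq' γ hγ := by
    obtain ⟨σ, hσ, rfl⟩ := hγ
    rw [famFn_slash_SL φ hφ.left_inv hφ.arch_scalar hφ.weight_one σ 1 trivAtInf_one]
    funext z
    rw [famFn_apply, famFn_apply, mul_one, mul_one]
    have hu : A0.InLevelGroup (lvl N) (finPart (mapGL ℚ σ))⁻¹ := by
      rw [← finPart_inv, ← map_inv]
      exact inLevel_finPart_Gamma N ((Gamma N).inv_mem hσ)
    rw [hφ.level_inv _ hu]
  holo' := hφ.holo 1 trivAtInf_one
  zero_at_cusps' {c} hc := by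
    have hc' : IsCusp c 𝒮ℒ := (Subgroup.IsArithmetic.isCusp_iff_isCusp_SL2Z _).mp hc
    rw [OnePoint.isZeroAt_iff_forall_SL2Z hc']
    intro σ _
    rw [SL_slash]
    have h := famFn_slash_SL φ hφ.left_inv hφ.arch_scalar hφ.weight_one σ 1 trivAtInf_one
    have h2 : IsZeroAtImInfty ((famFn φ 1) ∣[(1 : ℤ)] (mapGL ℝ σ : GL (Fin 2) ℝ)) := by
      rw [h]
      exact isZeroAtImInfty_famFn φ hφ.bdd _
    exact h2

theorem coe_cuspOfLevelForm (N : ℕ) [NeZero N] (a b : Nat.Primes → ℂ) (φ : A0.G ℚ → ℂ)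
    (hφ : IsLevelForm N a b φ) : ⇑(cuspOfLevelForm N a b φ hφ) = famFn φ 1 := rfl

theorem cuspOfLevelForm_ne_zero (N : ℕ) [NeZero N] (a b : Nat.Primes → ℂ) (φ : A0.G ℚ → ℂ)
    (hφ : IsLevelForm N a b φ) : cuspOfLevelForm N a b φ hφ ≠ 0 := by
  obtain ⟨z, hz⟩ := hφ.based
  intro h0
  have h : (cuspOfLevelForm N a b φ hφ) z = (0 : CuspForm (Gamma N) 1) z := by rw [h0]
  rw [coe_cuspOfLevelForm, famFn_apply, mul_one] at h
  have h2 : (0 : CuspForm (Gamma N) 1) z = 0 := rfl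
  rw [h2] at h
  rcases mul_eq_zero.mp h with h | h
  · exact sqrt_im_ne_zero z (inv_eq_zero.mp h)
  · exact hz h

end Fermat.Agent.LT.H670.QOut

end
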