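import Fermat.Agent.LT.H670.Twist
import Fermat.Prelude.Def_ModularForm_HeckeOperatorForms
import Fermat.Prelude.Thm_ModularFormClass_qCoeff_heckeU

/-!
# Row LT, T7.QOUT (helper670): the operator `U_m` on `S_k(Γ₁(M))` for `m ∣ M^∞`

`exists_U_Gamma1`: for `G ∈ S_k(Γ₁(M))` and `m` all of whose prime factors divide `M` there is
`G' ∈ S_k(Γ₁(M))` with `a_n(G') = a_{n m}(G)`.  OFF-MAIN.
-/

set_option autoImplicit false

open UpperHalfPlane ModularForm CongruenceSubgroup Matrix.SpecialLinearGroup ModularFormClass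
open scoped MatrixGroups ModularForm Manifold

namespace Fermat.Agent.LT.H670.QOut

noncomputable section

open P2MW.S_ModularForm_heckeU_slash_eq_self_of_mem_Gamma0.ModularForm.HeckeSlashInvariance in
/-- `U_p` preserves invariance under `Γ₁(N)` when `p ∣ N`. -/
theorem heckeU_slash_Gamma1 {N p : ℕ} [NeZero p] (k : ℤ) (hpN : p ∣ N) (f : ℍ → ℂ)
    (hf : ∀ γ ∈ (Gamma1 N : Subgroup (GL (Fin 2) ℝ)), f ∣[k] γ = f)
    (g : SL(2, ℤ)) (hg : g ∈ Gamma1 N) :
    heckeU k p f ∣[k] (mapGL ℝ g) = heckeU k p f := by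
  have hp : p ≠ 0 := NeZero.ne p
  have hg3 := (Gamma1_mem N g).mp hg
  have hcN : (N : ℤ) ∣ g 1 0 := (ZMod.intCast_zmod_eq_zero_iff_dvd _ _).mp hg3.2.2
  have hc : (p : ℤ) ∣ g 1 0 := (Int.natCast_dvd_natCast.mpr hpN).trans hcN
  rw [heckeU_eq_sum_zmod k f, SlashAction.sum_slash]
  calc ∑ x : ZMod p, (f ∣[k] heckeMatrix p x.val) ∣[k] mapGL ℝ g
      = ∑ x : ZMod p, f ∣[k] heckeMatrix p
          (affinePerm g ((ZMod.intCast_zmod_eq_zero_iff_dvd _ _).mpr hc) x).val := by
        refine Finset.sum_congr rfl fun x _ ↦ ?_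
        obtain ⟨g', hg'10, hmul⟩ := heckeMatrix_mul_of_dvd g hc x
        set x' := (affinePerm g ((ZMod.intCast_zmod_eq_zero_iff_dvd _ _).mpr hc) x).val with hx'
        have h00 := congrArg (fun m : GL (Fin 2) ℝ => (m : Matrix (Fin 2) (Fin 2) ℝ) 0 0) hmul
        have h11 := congrArg (fun m : GL (Fin 2) ℝ => (m : Matrix (Fin 2) (Fin 2) ℝ) 1 1) hmul
        simp only [Units.val_mul, Matrix.mul_apply, Fin.sum_univ_two, val_heckeMatrix hp,
          Matrix.of_apply, Matrix.cons_val', Matrix.cons_val_zero, Matrix.cons_val_one,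
          Matrix.cons_val_fin_one, mapGL_real_apply] at h00 h11
        have e00 : g' 0 0 = g 0 0 + (x.val : ℤ) * g 1 0 := by
          have : ((g' 0 0 : ℤ) : ℝ) = ((g 0 0 + (x.val : ℤ) * g 1 0 : ℤ) : ℝ) := by
            push_cast; linarith
          exact_mod_cast this
        have e11 : g' 1 1 = g 1 1 - g 1 0 * (x' : ℤ) := by
          have hpR : (p : ℝ) ≠ 0 := by exact_mod_cast hp
          have h10 : ((g' 1 0 : ℤ) : ℝ) = (p : ℝ) * ((g 1 0 : ℤ) : ℝ) := by
            rw [hg'10]; push_cast; ring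
          have : ((g' 1 1 : ℤ) : ℝ) = ((g 1 1 - g 1 0 * (x' : ℤ) : ℤ) : ℝ) := by
            push_cast
            have h := h11
            rw [h10] at h
            have h2 : (p : ℝ) * ((g' 1 1 : ℤ) : ℝ)
                = (p : ℝ) * (((g 1 1 : ℤ) : ℝ) - ((g 1 0 : ℤ) : ℝ) * (x' : ℝ)) := by
              linarith
            exact mul_left_cancel₀ hpR h2
          exact_mod_cast this
        have hg'N : g' ∈ Gamma1 N := by
          rw [Gamma1_mem]
          refine ⟨?_, ?_, ?_⟩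
          · rw [e00]; push_cast; rw [hg3.1, hg3.2.2]; ring
          · rw [e11]; push_cast; rw [hg3.2.1, hg3.2.2]; ring
          · rw [hg'10]; push_cast; rw [hg3.2.2]; ring
        rw [← SlashAction.slash_mul, hmul, SlashAction.slash_mul,
          hf _ (Subgroup.mem_map_of_mem (mapGL ℝ) hg'N)]
    _ = ∑ x : ZMod p, f ∣[k] heckeMatrix p x.val :=
        Equiv.sum_comp (affinePerm g _) (fun x ↦ f ∣[k] heckeMatrix p x.val)

/-- `U_p` on `S_k(Γ₁(M))` for `p ∣ M`. -/
def heckeUGamma1 {M p : ℕ} [NeZero M] (k : ℤ) (hpM : p ∣ M) (G : CuspForm (Gamma1 M) k) :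
    CuspForm (Gamma1 M) k where
  toFun := heckeU k p ⇑G
  slash_action_eq' := fun γ hγ => by
    have hp : p ≠ 0 := fun h => NeZero.ne M (by rw [h] at hpM; exact Nat.eq_zero_of_zero_dvd hpM)
    have : NeZero p := ⟨hp⟩
    obtain ⟨g, hg, rfl⟩ := hγ
    exact heckeU_slash_Gamma1 k hpM G
      (fun γ hγ => SlashInvariantFormClass.slash_action_eq G γ hγ) g hg
  holo' := mdifferentiable_heckeU (CuspFormClass.holo G) k p
  zero_at_cusps' := fun hc => CuspFormClass.isZeroAt_heckeU G p hc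

theorem qCoeff_heckeUGamma1 {M p : ℕ} [NeZero M] (k : ℤ) (hpM : p ∣ M)
    (G : CuspForm (Gamma1 M) k) (n : ℕ) :
    qCoeff (heckeUGamma1 k hpM G) n = qCoeff G (n * p) := by
  have hp : p ≠ 0 := fun h => NeZero.ne M (by rw [h] at hpM; exact Nat.eq_zero_of_zero_dvd hpM)
  have h := ModularFormClass.qCoeff_heckeU G
    (Fermat.Agent.LT.H670.one_mem_strictPeriods_Gamma1_map M) hp n
  rw [coeffHeckeU_apply] at h
  exact h

/-- **`U_m`** for `m` with all prime factors dividing `M`. -/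
theorem exists_U_Gamma1 (M : ℕ) [NeZero M] (k : ℤ) (G : CuspForm (Gamma1 M) k) :
    ∀ m : ℕ, m ≠ 0 → (∀ q : ℕ, q.Prime → q ∣ m → q ∣ M) →
      ∃ G' : CuspForm (Gamma1 M) k, ∀ n : ℕ, qCoeff G' n = qCoeff G (n * m) := by
  intro m
  induction m using Nat.strong_induction_on with
  | _ m ih =>
    intro hm hq
    by_cases h1 : m = 1
    · subst h1
      exact ⟨G, fun n => by rw [mul_one]⟩
    · have hp := Nat.minFac_prime h1
      obtain ⟨m', hm'⟩ := Nat.minFac_dvd m
      have hm'0 : m' ≠ 0 := by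
        rintro rfl
        rw [mul_zero] at hm'
        exact hm hm'
      have hlt : m' < m := by
        calc m' = 1 * m' := (one_mul _).symm
          _ < m.minFac * m' := Nat.mul_lt_mul_of_pos_right hp.one_lt (Nat.pos_of_ne_zero hm'0)
          _ = m := hm'.symm
      have hq' : ∀ q : ℕ, q.Prime → q ∣ m' → q ∣ M := fun q hqp hqm =>
        hq q hqp (hm' ▸ Dvd.dvd.mul_left hqm _)
      obtain ⟨G'', hG''⟩ := ih m' hlt hm'0 hq'
      have hpM : m.minFac ∣ M := hq _ hp (Nat.minFac_dvd m)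
      refine ⟨heckeUGamma1 k hpM G'', fun n => ?_⟩
      rw [qCoeff_heckeUGamma1, hG'']
      congr 1
      rw [mul_assoc]
      exact congrArg _ hm'.symm

end

end Fermat.Agent.LT.H670.QOut
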