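import Fermat.Agent.LT.H670.QOut.Spec
import Fermat.Agent.LT.H670.QOut.ClassU

/-!
# Row LT, T7.QOUT (helper670): leaf `QN` PROVED (classical normalisation and untwisting)

`qN : QN`.  OFF-MAIN.
-/

set_option autoImplicit false

open UpperHalfPlane ModularForm CongruenceSubgroup Matrix.SpecialLinearGroup ModularFormClass
open scoped MatrixGroups ModularForm Manifold

namespace Fermat.Agent.LT.H670.QOut

noncomputable section

open Fermat.Agent.LT.H556 Fermat.Agent.LT.H670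

/-- the `q`-expansion of a cusp form on `Γ₁(M)` -/
theorem hasSum_qCoeff_Gamma1 {M : ℕ} {k : ℤ} (G : CuspForm (Gamma1 M) k) (τ : ℍ) :
    HasSum (fun n : ℕ => qCoeff G n • Function.Periodic.qParam 1 (τ : ℂ) ^ n) (G τ) := by
  have : Fact (IsCusp OnePoint.infty (Subgroup.map (mapGL ℝ) (Gamma1 M))) :=
    ⟨Subgroup.isCusp_of_mem_strictPeriods one_pos (one_mem_strictPeriods_Gamma1_map M)⟩
  exact ModularForm.hasSum_qExpansion (f := G) one_pos (one_mem_strictPeriods_Gamma1_map M) τ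

theorem qCoeff_zero_Gamma1 {M : ℕ} {k : ℤ} (G : CuspForm (Gamma1 M) k) : qCoeff G 0 = 0 := by
  have : Fact (IsCusp OnePoint.infty (Subgroup.map (mapGL ℝ) (Gamma1 M))) :=
    ⟨Subgroup.isCusp_of_mem_strictPeriods one_pos (one_mem_strictPeriods_Gamma1_map M)⟩
  exact CuspFormClass.qExpansion_coeff_zero G one_pos (one_mem_strictPeriods_Gamma1_map M)

theorem qCoeff_smul_Gamma1 {M : ℕ} {k : ℤ} (c : ℂ) (G : CuspForm (Gamma1 M) k) (n : ℕ) :
    qCoeff (⇑(c • G : CuspForm (Gamma1 M) k)) n = c * qCoeff G n := by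
  have key : ∀ τ : ℍ, HasSum
      (fun n : ℕ => (c * qCoeff G n) • Function.Periodic.qParam 1 (τ : ℂ) ^ n)
      ((c • G : CuspForm (Gamma1 M) k) τ) := by
    intro τ
    have h := (hasSum_qCoeff_Gamma1 G τ).mul_left c
    have e : (c • G : CuspForm (Gamma1 M) k) τ = c * G τ := by
      rfl
    rw [e]
    refine h.congr_fun ?_
    intro n
    simp only [smul_eq_mul]
    ring
  exact (ModularFormClass.qExpansion_coeff_unique one_pos
    (one_mem_strictPeriods_Gamma1_map M) (f := (c • G : CuspForm (Gamma1 M) k)) key n).symm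

/-- a nonzero cusp form has a nonzero coefficient of positive index -/
theorem exists_qCoeff_ne_zero {M : ℕ} {k : ℤ} (G : CuspForm (Gamma1 M) k) (hG : G ≠ 0) :
    ∃ m : ℕ, m ≠ 0 ∧ qCoeff G m ≠ 0 := by
  by_contra hcon0
  have hcon : ∀ m : ℕ, m ≠ 0 → qCoeff G m = 0 := fun m hm =>
    by_contra fun h => hcon0 ⟨m, hm, h⟩
  apply hG
  have hall : ∀ n : ℕ, qCoeff G n = 0 := by
    intro n
    rcases Nat.eq_zero_or_pos n with rfl | hn
    · exact qCoeff_zero_Gamma1 G
    · exact hcon n hn.ne'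
  ext τ
  have h := hasSum_qCoeff_Gamma1 G τ
  have h0 : HasSum (fun n : ℕ => qCoeff G n • Function.Periodic.qParam 1 (τ : ℂ) ^ n) 0 := by
    have : (fun n : ℕ => qCoeff G n • Function.Periodic.qParam 1 (τ : ℂ) ^ n) = fun _ => 0 := by
      funext n
      rw [hall n, zero_smul]
    rw [this]
    exact hasSum_zero
  exact h.unique h0

/-- factorisation `m = m₀ m₁`, the primes of `m₀` dividing `M`, `m₁` prime to `M` -/
theorem exists_factor_level (M : ℕ) : ∀ m : ℕ, m ≠ 0 →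
    ∃ m₀ m₁ : ℕ, m = m₀ * m₁ ∧ m₀ ≠ 0 ∧ (∀ q : ℕ, q.Prime → q ∣ m₀ → q ∣ M) ∧
      Nat.Coprime m₁ M := by
  intro m
  induction m using Nat.strong_induction_on with
  | _ m ih =>
    intro hm
    by_cases hc : Nat.Coprime m M
    · exact ⟨1, m, (one_mul m).symm, one_ne_zero,
        fun q hq h1 => absurd (Nat.dvd_one.mp h1) hq.ne_one, hc⟩
    · obtain ⟨p, hp, hpm, hpM⟩ := Nat.Prime.not_coprime_iff_dvd.mp hc
      obtain ⟨m', rfl⟩ := hpm
      have hm'0 : m' ≠ 0 := by
        rintro rfl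
        exact hm (mul_zero p)
      have hlt : m' < p * m' := by
        calc m' = 1 * m' := (one_mul _).symm
          _ < p * m' := Nat.mul_lt_mul_of_pos_right hp.one_lt (Nat.pos_of_ne_zero hm'0)
      obtain ⟨m₀, m₁, h1, h2, h3, h4⟩ := ih m' hlt hm'0
      refine ⟨p * m₀, m₁, by rw [h1, mul_assoc], mul_ne_zero hp.ne_zero h2, ?_, h4⟩
      intro q hq hqd
      rcases (Nat.Prime.dvd_mul hq).mp hqd with h | h
      · rw [(Nat.prime_dvd_prime_iff_eq hq hp).mp h]
        exact hpM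
      · exact h3 q hq h

/-- if `c_{m₀} = 0` then `c_{m₀ n} = 0` for all `n` prime to `M` -/
theorem coeff_vanish_of_twisted (M : ℕ) (α β : DirichletCharacter ℂ M) (a b : Nat.Primes → ℂ)
    (G : CuspForm (Gamma1 M) 1) (hrel : TwistedEigen M α β a b G) (m₀ : ℕ)
    (hm₀ : ∀ q : ℕ, q.Prime → q ∣ m₀ → q ∣ M) (h0 : qCoeff G m₀ = 0) :
    ∀ n : ℕ, Nat.Coprime n M → qCoeff G (m₀ * n) = 0 := by
  intro n
  induction n using Nat.strong_induction_on with
  | _ n ih =>
    intro hn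
    by_cases h1 : n = 1
    · rw [h1, mul_one]
      exact h0
    · have hp := Nat.minFac_prime h1
      obtain ⟨n', hn'⟩ := Nat.minFac_dvd n
      set p := n.minFac with hpdef
      have hpM : ¬ p ∣ M := by
        intro hpM
        have : p ∣ Nat.gcd n M := Nat.dvd_gcd (Nat.minFac_dvd n) hpM
        rw [hn] at this
        exact hp.one_lt.ne' (Nat.dvd_one.mp this)
      have hn'c : Nat.Coprime n' M := Nat.Coprime.coprime_dvd_left ⟨p, by rw [hn', mul_comm]⟩ hn
      rcases Nat.eq_zero_or_pos n' with h0' | hpos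
      · rw [hn', h0', mul_zero, mul_zero]
        exact qCoeff_zero_Gamma1 G
      have hlt : n' < n := by
        calc n' = 1 * n' := (one_mul _).symm
          _ < p * n' := Nat.mul_lt_mul_of_pos_right hp.one_lt hpos
          _ = n := hn'.symm
      have hrelp := (hrel ⟨p, hp⟩ hpM).1 (m₀ * n')
      have e1 : qCoeff G (m₀ * n') = 0 := ih n' hlt hn'c
      have hpm₀ : ¬ p ∣ m₀ := fun h => hpM (hm₀ p hp h)
      have e2 : (if p ∣ m₀ * n' then qCoeff G (m₀ * n' / p) else 0) = 0 := by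
        split_ifs with hd
        · rcases (Nat.Prime.dvd_mul hp).mp hd with h | h
          · exact absurd h hpm₀
          · obtain ⟨n'', hn''⟩ := h
            have hn''c : Nat.Coprime n'' M :=
              Nat.Coprime.coprime_dvd_left ⟨p, by rw [hn'', mul_comm]⟩ hn'c
            have hlt2 : n'' < n := by
              rcases Nat.eq_zero_or_pos n'' with h0'' | hpos''
              · rw [h0'']; exact lt_of_le_of_lt (Nat.zero_le _) hlt
              · calc n'' = 1 * n'' := (one_mul _).symm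
                  _ < p * n'' := Nat.mul_lt_mul_of_pos_right hp.one_lt hpos''
                  _ = n' := hn''.symm
                  _ < n := hlt
            have : m₀ * n' / p = m₀ * n'' := by
              rw [hn'', ← mul_assoc, mul_comm m₀ p, mul_assoc, Nat.mul_div_cancel_left _ hp.pos]
            rw [this]
            exact ih n'' hlt2 hn''c
        · rfl
      simp only [e1, mul_zero] at hrelp
      change qCoeff G (p * (m₀ * n')) + _ * (if p ∣ m₀ * n' then qCoeff G (m₀ * n' / p) else 0)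
        = 0 at hrelp
      rw [e2, mul_zero, add_zero] at hrelp
      have : m₀ * n = p * (m₀ * n') := by rw [hn']; ring
      rw [this]
      exact hrelp

/-- **Leaf QN: PROVED.** -/
theorem qN : QN := by
  intro M hM α β a b G hG hrel
  have : NeZero M := hM
  obtain ⟨m, hm, hcm⟩ := exists_qCoeff_ne_zero G hG
  obtain ⟨m₀, m₁, hmm, hm₀0, hm₀, hm₁⟩ := exists_factor_level M m hm
  have hc0 : qCoeff G m₀ ≠ 0 := by
    intro h0
    apply hcm
    rw [hmm]
    exact coeff_vanish_of_twisted M α β a b G hrel m₀ hm₀ h0 m₁ hm₁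
  obtain ⟨G₁, hG₁⟩ := exists_U_Gamma1 M 1 G m₀ hm₀0 hm₀
  obtain ⟨G₂, hG₂⟩ := exists_twist_Gamma1 M M 1 G₁ (fun x => (α x)⁻¹)
  have hMN : M ∣ M * M ^ 2 := Dvd.intro _ rfl
  have hNne : NeZero (M * M ^ 2) := ⟨mul_ne_zero (NeZero.ne M) (pow_ne_zero 2 (NeZero.ne M))⟩
  set c : ℂ := qCoeff G m₀ with hc
  -- the coefficients of the normalised untwisted form
  have hcf : ∀ n : ℕ, qCoeff (⇑(c⁻¹ • G₂ : CuspForm (Gamma1 (M * M ^ 2)) 1)) n
      = c⁻¹ * ((α ((n : ℕ) : ZMod M))⁻¹ * qCoeff G (n * m₀)) := by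
    intro n
    rw [qCoeff_smul_Gamma1, hG₂, hG₁]
  -- facts at a prime not dividing the level
  have hprime : ∀ p : ℕ, p.Prime → ¬ p ∣ M * M ^ 2 →
      ¬ p ∣ M ∧ α ((p : ℕ) : ZMod M) ≠ 0 ∧ ¬ p ∣ m₀ ∧
        (DirichletCharacter.changeLevel hMN (β * α⁻¹ * α⁻¹)) ((p : ℕ) : ZMod (M * M ^ 2))
          = β ((p : ℕ) : ZMod M) * (α ((p : ℕ) : ZMod M))⁻¹ * (α ((p : ℕ) : ZMod M))⁻¹ := by
    intro p hp hpN
    have hpM : ¬ p ∣ M := fun h => hpN (h.trans hMN)
    have hcop : Nat.Coprime p M := (Nat.Prime.coprime_iff_not_dvd hp).mpr hpM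
    have hu : IsUnit ((p : ℕ) : ZMod M) := (ZMod.isUnit_iff_coprime p M).mpr hcop
    refine ⟨hpM, (IsUnit.map α hu).ne_zero, fun h => hpM (hm₀ p hp h), ?_⟩
    have hcopN : IsCoprime ((p : ℕ) : ℤ) ((M * M ^ 2 : ℕ) : ℤ) :=
      Nat.isCoprime_iff_coprime.mpr ((Nat.Prime.coprime_iff_not_dvd hp).mpr hpN)
    have h := DirichletCharacter.changeLevel_eq_cast_of_dvd' (β * α⁻¹ * α⁻¹) hMN hcopN
    simp only [Int.cast_natCast] at h
    rw [h, MulChar.mul_apply, MulChar.mul_apply, MulChar.inv_apply_eq_inv']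
  refine ⟨M * M ^ 2, hNne, DirichletCharacter.changeLevel hMN (β * α⁻¹ * α⁻¹), c⁻¹ • G₂,
    ⟨?_, ?_⟩, ?_⟩
  · -- normalised
    rw [hcf 1, one_mul, Nat.cast_one, map_one, inv_one, one_mul]
    exact inv_mul_cancel₀ hc0
  · -- the Hecke relations
    intro p hp hpN n
    obtain ⟨hpM, hα, hpm₀, hε⟩ := hprime p hp hpN
    have hr := (hrel ⟨p, hp⟩ hpM).1
    have hrn := hr (n * m₀)
    have hr1 := hr m₀
    simp only [] at hrn hr1
    change qCoeff G (p * (n * m₀)) + β ((p : ℕ) : ZMod M) *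
      (if p ∣ n * m₀ then qCoeff G (n * m₀ / p) else 0)
        = α ((p : ℕ) : ZMod M) * a ⟨p, hp⟩ * qCoeff G (n * m₀) at hrn
    change qCoeff G (p * m₀) + β ((p : ℕ) : ZMod M) *
      (if p ∣ m₀ then qCoeff G (m₀ / p) else 0)
        = α ((p : ℕ) : ZMod M) * a ⟨p, hp⟩ * qCoeff G m₀ at hr1
    rw [if_neg hpm₀, mul_zero, add_zero, ← hc] at hr1
    have hfp : qCoeff (⇑(c⁻¹ • G₂ : CuspForm (Gamma1 (M * M ^ 2)) 1)) p = a ⟨p, hp⟩ := by
      rw [hcf p, hr1]
      field_simp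
    rw [hfp, hε, hcf (p * n), hcf n]
    have e1 : p * n * m₀ = p * (n * m₀) := mul_assoc _ _ _
    rw [e1]
    have hC : qCoeff G (p * (n * m₀)) = α ((p : ℕ) : ZMod M) * a ⟨p, hp⟩ * qCoeff G (n * m₀)
        - β ((p : ℕ) : ZMod M) * (if p ∣ n * m₀ then qCoeff G (n * m₀ / p) else 0) := by
      rw [← hrn]; ring
    rw [hC]
    have hαmul : α (((p * n : ℕ) : ℕ) : ZMod M)
        = α ((p : ℕ) : ZMod M) * α ((n : ℕ) : ZMod M) := by
      rw [Nat.cast_mul, map_mul]
    rw [hαmul]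
    by_cases hd : p ∣ n
    · obtain ⟨n'', rfl⟩ := hd
      have hd' : p ∣ p * n'' * m₀ := Dvd.dvd.mul_right (Dvd.intro _ rfl) _
      rw [if_pos (Dvd.intro _ rfl), if_pos hd', Nat.mul_div_cancel_left _ hp.pos, hcf n'']
      have : p * n'' * m₀ / p = n'' * m₀ := by
        rw [mul_assoc, Nat.mul_div_cancel_left _ hp.pos]
      rw [this]
      have hαmul2 : α (((p * n'' : ℕ) : ℕ) : ZMod M)
          = α ((p : ℕ) : ZMod M) * α ((n'' : ℕ) : ZMod M) := by
        rw [Nat.cast_mul, map_mul]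
      rw [hαmul2]
      rw [mul_inv, mul_inv]
      field_simp
      ring
    · have hd' : ¬ p ∣ n * m₀ := by
        intro h
        rcases (Nat.Prime.dvd_mul hp).mp h with h | h
        · exact hd h
        · exact hpm₀ h
      rw [if_neg hd, if_neg hd', mul_zero, mul_zero, add_zero, sub_zero, mul_inv]
      field_simp
  · -- the eigenvalues
    intro p hpN
    obtain ⟨hpM, hα, hpm₀, hε⟩ := hprime p p.2 hpN
    have hr := (hrel p hpM)
    have hr1 := hr.1 m₀
    change qCoeff G (p * m₀) + β (((p : ℕ) : ℕ) : ZMod M) *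
      (if (p : ℕ) ∣ m₀ then qCoeff G (m₀ / p) else 0)
        = α (((p : ℕ) : ℕ) : ZMod M) * a p * qCoeff G m₀ at hr1
    rw [if_neg hpm₀, mul_zero, add_zero, ← hc] at hr1
    refine ⟨?_, ?_⟩
    · rw [hcf p, hr1]
      field_simp
    · rw [hε, hr.2]
      field_simp

end

end Fermat.Agent.LT.H670.QOut
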