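import Fermat.Agent.LT.H670.QOut.SpecA
import Fermat.Agent.LT.H670.QOut.ClassN
import Fermat.Prelude.Thm_ModularFormClass_qCoeff_heckeT
import Fermat.Prelude.Thm_ModularForm_periodic_heckeU_comp_ofComplex
import Fermat.Prelude.Thm_ModularForm_periodic_heckeT_comp_ofComplex
import Fermat.Prelude.Thm_ModularForm_isBoundedAtImInfty_heckeU
import Fermat.Prelude.Thm_ModularForm_isBoundedAtImInfty_heckeT
import Fermat.Prelude.Thm_ModularForm_mdifferentiable_heckeT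

/-!
# Row LT, T7.QOUT (helper670): leaf `QA4` PROVED (classical rescaling and `q`-coefficients)

`qA4 : QA4`.  OFF-MAIN.
-/

set_option autoImplicit false

open UpperHalfPlane ModularForm CongruenceSubgroup Matrix.SpecialLinearGroup ModularFormClass
open scoped MatrixGroups ModularForm Manifold

namespace Fermat.Agent.LT.H670.QOut

noncomputable section

open Fermat.Agent.LT.H556 Fermat.Agent.LT.H670

/-- `diag(N,1) g = g' diag(N,1)` with `g' ∈ Γ(N)` for `g ∈ Γ₁(N²)`. -/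
theorem diag_mul_Gamma1_sq (N : ℕ) (hN : N ≠ 0) (g : SL(2, ℤ)) (hg : g ∈ Gamma1 (N ^ 2)) :
    ∃ g' : SL(2, ℤ), g' ∈ Gamma N ∧
      heckeDiagMatrix N * mapGL ℝ g = mapGL ℝ g' * heckeDiagMatrix N := by
  have hg3 := (Gamma1_mem (N ^ 2) g).mp hg
  have hdet := sl2_det_eq g
  obtain ⟨e, he⟩ : ((N ^ 2 : ℕ) : ℤ) ∣ g 1 0 := (ZMod.intCast_zmod_eq_zero_iff_dvd _ _).mp hg3.2.2
  obtain ⟨ea, hea⟩ : ((N ^ 2 : ℕ) : ℤ) ∣ g 0 0 - 1 := by
    rw [← ZMod.intCast_zmod_eq_zero_iff_dvd]; push_cast; rw [hg3.1]; ring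
  obtain ⟨ed, hed⟩ : ((N ^ 2 : ℕ) : ℤ) ∣ g 1 1 - 1 := by
    rw [← ZMod.intCast_zmod_eq_zero_iff_dvd]; push_cast; rw [hg3.2.1]; ring
  push_cast at he hea hed
  obtain ⟨g', e00, e01, e10, e11⟩ := exists_sl2_of_entries
    (g 0 0) ((N : ℤ) * g 0 1) ((N : ℤ) * e) (g 1 1)
    (by rw [he] at hdet; linear_combination hdet)
  refine ⟨g', Gamma_mem.mpr ⟨?_, ?_, ?_, ?_⟩, ?_⟩
  · have : (g' 0 0 : ℤ) = 1 + (N : ℤ) * ((N : ℤ) * ea) := by rw [e00]; linear_combination hea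
    rw [this]; push_cast; simp
  · rw [e01]; push_cast; simp
  · rw [e10]; push_cast; simp
  · have : (g' 1 1 : ℤ) = 1 + (N : ℤ) * ((N : ℤ) * ed) := by rw [e11]; linear_combination hed
    rw [this]; push_cast; simp
  · have heR := congrArg (Int.cast : ℤ → ℝ) he
    have f00 := congrArg (Int.cast : ℤ → ℝ) e00
    have f01 := congrArg (Int.cast : ℤ → ℝ) e01
    have f10 := congrArg (Int.cast : ℤ → ℝ) e10
    have f11 := congrArg (Int.cast : ℤ → ℝ) e11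
    push_cast at heR f00 f01 f10 f11
    apply Units.ext
    ext i j'
    rw [Units.val_mul, Units.val_mul, Matrix.mul_apply, Matrix.mul_apply, Fin.sum_univ_two,
      Fin.sum_univ_two]
    simp only [mapGL_real_apply]
    fin_cases i <;> fin_cases j' <;>
      simp [hN, f00, f01, f10, f11] <;>
      first
        | ring1
        | (rw [heR]; ring1)

open ConjAct Pointwise in
theorem Gamma1_sq_le_conj_diag (N : ℕ) (hN : N ≠ 0) :
    (Gamma1 (N ^ 2) : Subgroup (GL (Fin 2) ℝ)) ≤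
      toConjAct (heckeDiagMatrix N)⁻¹ • (Gamma N : Subgroup (GL (Fin 2) ℝ)) := by
  rintro γ ⟨g, hg, rfl⟩
  rw [Subgroup.mem_pointwise_smul_iff_inv_smul_mem, ← map_inv, inv_inv, ConjAct.smul_def,
    ConjAct.ofConjAct_toConjAct]
  obtain ⟨g', hg'1, hg'⟩ := diag_mul_Gamma1_sq N hN g hg
  rw [hg', mul_inv_cancel_right]
  exact ⟨g', hg'1, rfl⟩

/-- `z ↦ F(N z)` as a cusp form on `Γ₁(N²)`. -/
def rescaleForm (N : ℕ) (hN : N ≠ 0) (F : CuspForm (Gamma N) 1) : CuspForm (Gamma1 (N ^ 2)) 1 :=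
  restrictCusp (Gamma1_sq_le_conj_diag N hN) (CuspForm.translate F (heckeDiagMatrix N))

theorem coe_rescaleForm (N : ℕ) (hN : N ≠ 0) (F : CuspForm (Gamma N) 1) :
    ⇑(rescaleForm N hN F) = (⇑F) ∣[(1 : ℤ)] heckeDiagMatrix N := rfl

theorem rescaleForm_apply (N : ℕ) (hN : N ≠ 0) (F : CuspForm (Gamma N) 1) (τ : ℍ) :
    rescaleForm N hN F τ = F (heckeDiagMatrix N • τ) := by
  rw [coe_rescaleForm, slash_heckeDiagMatrix_apply 1 hN]
  simp

theorem rescaleForm_ne_zero (N : ℕ) (hN : N ≠ 0) (F : CuspForm (Gamma N) 1) (hF : F ≠ 0) :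
    rescaleForm N hN F ≠ 0 := by
  intro h0
  apply hF
  ext τ
  have h := congrArg (fun G : CuspForm (Gamma1 (N ^ 2)) 1 => G ((heckeDiagMatrix N)⁻¹ • τ)) h0
  simp only [rescaleForm_apply, smul_inv_smul] at h
  exact h

theorem heckeMatrix_mul_diag (N p : ℕ) (hN : N ≠ 0) (hp : p ≠ 0) (j : ℕ) :
    heckeMatrix p (N * j) * heckeDiagMatrix N = heckeDiagMatrix N * heckeMatrix p j := by
  apply Units.ext
  ext i j
  fin_cases i <;> fin_cases j <;>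
    simp [hN, hp, Matrix.mul_apply, Fin.sum_univ_two]

theorem heckeDiag_mul_diag (N p : ℕ) (hN : N ≠ 0) (hp : p ≠ 0) :
    heckeDiagMatrix p * heckeDiagMatrix N = heckeDiagMatrix N * heckeDiagMatrix p := by
  apply Units.ext
  ext i j
  fin_cases i <;> fin_cases j <;>
    simp [hN, hp, Matrix.mul_apply, Fin.sum_univ_two]
  exact mul_comm _ _

/-- the Hecke identity of `F` gives the one of `G(z) = F(N z)` (pointwise) -/
theorem rescale_hecke (N : ℕ) (hN : N ≠ 0) (ψ₁ ψ₂ : DirichletCharacter ℂ N)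
    (a b : Nat.Primes → ℂ) (F : CuspForm (Gamma N) 1) (hH : FnHecke N ψ₁ ψ₂ a b F)
    (p : Nat.Primes) (hpN : ¬ (p : ℕ) ∣ N) (τ : ℍ) :
    (ψ₁ (((p : ℕ) : ℕ) : ZMod N))⁻¹ * heckeU 1 (p : ℕ) (⇑(rescaleForm N hN F)) τ
      + (ψ₂ (((p : ℕ) : ℕ) : ZMod N))⁻¹ *
          ((⇑(rescaleForm N hN F)) ∣[(1 : ℤ)] heckeDiagMatrix (p : ℕ)) τ
      = a p * rescaleForm N hN F τ := by
  have hp : (p : ℕ) ≠ 0 := p.2.ne_zero
  have h := congrFun (hH p hpN).1 (heckeDiagMatrix N • τ)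
  simp only [Pi.add_apply, Pi.smul_apply, smul_eq_mul, Finset.sum_apply] at h
  rw [rescaleForm_apply, ← h, heckeU_apply 1 hp, Finset.mul_sum]
  congr 1
  · congr 1
    refine Finset.sum_congr rfl fun j _ => ?_
    rw [slash_heckeMatrix_apply 1 hp, rescaleForm_apply, ← mul_smul, ← mul_smul,
      heckeMatrix_mul_diag N p hN hp]
  · congr 1
    rw [slash_heckeDiagMatrix_apply 1 hp, slash_heckeDiagMatrix_apply 1 hp, rescaleForm_apply,
      ← mul_smul, ← mul_smul, heckeDiag_mul_diag N p hN hp]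


/-- the Hecke identity of `G` on `q`-coefficients -/
theorem rescale_coeff (N : ℕ) [NeZero N] (ψ₁ ψ₂ : DirichletCharacter ℂ N)
    (a b : Nat.Primes → ℂ) (F : CuspForm (Gamma N) 1) (hH : FnHecke N ψ₁ ψ₂ a b F)
    (p : Nat.Primes) (hpN : ¬ (p : ℕ) ∣ N) (n : ℕ) :
    (ψ₁ (((p : ℕ) : ℕ) : ZMod N))⁻¹ * qCoeff (rescaleForm N (NeZero.ne N) F) (n * (p : ℕ))
      + (ψ₂ (((p : ℕ) : ℕ) : ZMod N))⁻¹ *
          (if (p : ℕ) ∣ n then qCoeff (rescaleForm N (NeZero.ne N) F) (n / (p : ℕ)) else 0)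
      = a p * qCoeff (rescaleForm N (NeZero.ne N) F) n := by
  have hN : N ≠ 0 := NeZero.ne N
  have hp : (p : ℕ) ≠ 0 := p.2.ne_zero
  set G := rescaleForm N hN F with hGdef
  have hΓ := one_mem_strictPeriods_Gamma1_map (N ^ 2)
  have hcusp : Fact (IsCusp OnePoint.infty (Subgroup.map (mapGL ℝ) (Gamma1 (N ^ 2)))) :=
    ⟨Subgroup.isCusp_of_mem_strictPeriods one_pos hΓ⟩
  have hper : Function.Periodic (⇑G ∘ UpperHalfPlane.ofComplex) 1 :=
    SlashInvariantFormClass.periodic_comp_ofComplex G hΓ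
  have hhol : MDifferentiable 𝓘(ℂ) 𝓘(ℂ) ⇑G := CuspFormClass.holo G
  have hbdd : IsBoundedAtImInfty ⇑G := ModularFormClass.bdd_at_infty G
  have hcU : ∀ m : ℕ, (qExpansion 1 (heckeU 1 (p : ℕ) ⇑G)).coeff m = qCoeff G (m * (p : ℕ)) :=
    fun m => ModularFormClass.qCoeff_heckeU G hΓ hp m
  have hcT : ∀ m : ℕ, (qExpansion 1 (heckeT 1 (p : ℕ) ⇑G)).coeff m
      = qCoeff G (m * (p : ℕ)) + (if (p : ℕ) ∣ m then qCoeff G (m / (p : ℕ)) else 0) := by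
    intro m
    have h := ModularFormClass.qCoeff_heckeT G hΓ hp m
    rw [coeffHeckeT_apply] at h
    simp only [sub_self, zpow_zero, one_mul] at h
    exact h
  have key : ∀ τ : ℍ, HasSum
      (fun m : ℕ => ((ψ₁ (((p : ℕ) : ℕ) : ZMod N))⁻¹ * qCoeff G (m * (p : ℕ))
        + (ψ₂ (((p : ℕ) : ℕ) : ZMod N))⁻¹ *
          (if (p : ℕ) ∣ m then qCoeff G (m / (p : ℕ)) else 0)) •
          Function.Periodic.qParam 1 (τ : ℂ) ^ m)
      ((a p • G : CuspForm (Gamma1 (N ^ 2)) 1) τ) := by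
    intro τ
    have hU := UpperHalfPlane.hasSum_qExpansion one_pos
      (periodic_heckeU_comp_ofComplex hper 1 (p : ℕ)) (mdifferentiable_heckeU hhol 1 (p : ℕ))
      (isBoundedAtImInfty_heckeU hbdd 1 (p : ℕ)) τ
    have hT := UpperHalfPlane.hasSum_qExpansion one_pos
      (periodic_heckeT_comp_ofComplex hper 1 (p : ℕ)) (mdifferentiable_heckeT hhol 1 (p : ℕ))
      (isBoundedAtImInfty_heckeT hbdd 1 (p : ℕ)) τ
    have hsum := (hU.mul_left (ψ₁ (((p : ℕ) : ℕ) : ZMod N))⁻¹).add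
      ((hT.sub hU).mul_left (ψ₂ (((p : ℕ) : ℕ) : ZMod N))⁻¹)
    have hval : (ψ₁ (((p : ℕ) : ℕ) : ZMod N))⁻¹ * heckeU 1 (p : ℕ) (⇑G) τ
        + (ψ₂ (((p : ℕ) : ℕ) : ZMod N))⁻¹ * (heckeT 1 (p : ℕ) (⇑G) τ - heckeU 1 (p : ℕ) (⇑G) τ)
        = (a p • G : CuspForm (Gamma1 (N ^ 2)) 1) τ := by
      have h1 := rescale_hecke N hN ψ₁ ψ₂ a b F hH p hpN τ
      have h2 : heckeT 1 (p : ℕ) (⇑G) τ - heckeU 1 (p : ℕ) (⇑G) τ
          = ((⇑G) ∣[(1 : ℤ)] heckeDiagMatrix (p : ℕ)) τ := by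
        rw [heckeT_eq_heckeU_add, Pi.add_apply, add_sub_cancel_left]
      rw [h2]
      exact h1
    rw [hval] at hsum
    refine hsum.congr_fun ?_
    intro m
    simp only [smul_eq_mul, hcU, hcT]
    ring
  have huniq := ModularFormClass.qExpansion_coeff_unique one_pos hΓ
    (f := (a p • G : CuspForm (Gamma1 (N ^ 2)) 1)) key n
  rw [huniq]
  exact qCoeff_smul_Gamma1 (a p) G n

/-- **Leaf QA4: PROVED.** -/
theorem qA4 : QA4 := by
  intro N hNz a b ψ₁ ψ₂ F hF hH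
  have : NeZero N := hNz
  have hN : N ≠ 0 := NeZero.ne N
  have hMN : N ∣ N ^ 2 := Dvd.intro_left (N ^ 1) (by ring)
  have hNne : NeZero (N ^ 2) := ⟨pow_ne_zero 2 hN⟩
  refine ⟨N ^ 2, hNne, DirichletCharacter.changeLevel hMN ψ₁,
    DirichletCharacter.changeLevel hMN (ψ₁ * ψ₂⁻¹), rescaleForm N hN F,
    rescaleForm_ne_zero N hN F hF, ?_⟩
  intro p hpN2
  have hpN : ¬ (p : ℕ) ∣ N := fun h => hpN2 (h.trans hMN)
  have hcop : Nat.Coprime (p : ℕ) N := (Nat.Prime.coprime_iff_not_dvd p.2).mpr hpN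
  have hu : IsUnit (((p : ℕ) : ℕ) : ZMod N) := (ZMod.isUnit_iff_coprime p N).mpr hcop
  have h1 : ψ₁ (((p : ℕ) : ℕ) : ZMod N) ≠ 0 := (IsUnit.map ψ₁ hu).ne_zero
  have h2 : ψ₂ (((p : ℕ) : ℕ) : ZMod N) ≠ 0 := (IsUnit.map ψ₂ hu).ne_zero
  have hcopN : IsCoprime (((p : ℕ) : ℕ) : ℤ) ((N ^ 2 : ℕ) : ℤ) :=
    Nat.isCoprime_iff_coprime.mpr ((Nat.Prime.coprime_iff_not_dvd p.2).mpr hpN2)
  have hα : (DirichletCharacter.changeLevel hMN ψ₁) (((p : ℕ) : ℕ) : ZMod (N ^ 2))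
      = ψ₁ (((p : ℕ) : ℕ) : ZMod N) := by
    have h := DirichletCharacter.changeLevel_eq_cast_of_dvd' ψ₁ hMN hcopN
    simp only [Int.cast_natCast] at h
    exact h
  have hβ : (DirichletCharacter.changeLevel hMN (ψ₁ * ψ₂⁻¹)) (((p : ℕ) : ℕ) : ZMod (N ^ 2))
      = ψ₁ (((p : ℕ) : ℕ) : ZMod N) * (ψ₂ (((p : ℕ) : ℕ) : ZMod N))⁻¹ := by
    have h := DirichletCharacter.changeLevel_eq_cast_of_dvd' (ψ₁ * ψ₂⁻¹) hMN hcopN
    simp only [Int.cast_natCast] at h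
    rw [h, MulChar.mul_apply, MulChar.inv_apply_eq_inv']
  refine ⟨fun n => ?_, ?_⟩
  · have h := rescale_coeff N ψ₁ ψ₂ a b F hH p hpN n
    rw [hα, hβ, mul_comm (p : ℕ) n]
    have h3 : qCoeff (rescaleForm N hN F) (n * (p : ℕ))
        = ψ₁ (((p : ℕ) : ℕ) : ZMod N) * (a p * qCoeff (rescaleForm N hN F) n
          - (ψ₂ (((p : ℕ) : ℕ) : ZMod N))⁻¹ *
            (if (p : ℕ) ∣ n then qCoeff (rescaleForm N hN F) (n / (p : ℕ)) else 0)) := by
      rw [← h]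
      field_simp
      ring
    rw [h3]
    ring
  · rw [hα, hβ]
    have hb := (hH p hpN).2
    have : b p = (ψ₁ (((p : ℕ) : ℕ) : ZMod N))⁻¹ * (ψ₂ (((p : ℕ) : ℕ) : ZMod N))⁻¹ := by
      field_simp
      linear_combination hb
    rw [this]
    field_simp


end

end Fermat.Agent.LT.H670.QOut
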