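import Fermat.Agent.LT.H670.QOut.Spec
import Fermat.Prelude.Def_ModularForm_HeckeOperator

/-!
# Row LT, tower T7, sub-tower QOUT (helper670): SPEC of leaf `QA` (adelic to classical)

OFF-MAIN.  Frozen sub-leaves `QA1 .. QA4` of `QA` and the PROVED assembly
`qa_of_leaves : QA1 → QA2 → QA3 → QA4 → QA`.  Every leaf is hypothesis-parametrised.

* `QA1` (BASE POINT, adelic): from `IsHolWtOneFormFor π φ` to a form `φ₁` of level `U(N)` in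
  CONCRETE shape (`IsLevelForm`, local elements `locInf`), with the same Hecke eigenvalues at all
  `p ∤ N`, and NOT VANISHING at some `g_z` (`based`).  Route: `φ(g_∞ g₀) ≠ 0`; `g_∞ = g_z r k_θ`
  after left translation by `diag(-1,1) ∈ GL₂(ℚ)` if `det g_∞ < 0`; `φ₁(g) = φ(g g₀')` with `g₀'`
  the part of `g₀` at the finitely many places where `g₀` is not in `GL₂(𝒪_v)` or which divide
  the level; `N = N₀ D² ∏ (bad p)` (bounded denominators).  NO strong approximation.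
* `QA2` (TORUS, adelic): eigen-projection under the diagonal torus mod `N`:
  `φ₂(g) = Σ_t ψ₁(t₁)⁻¹ ψ₂(t₂)⁻¹ φ₁(g t̃)`; some `(ψ₁,ψ₂)` keeps the base point.
* `QA3` (CLASSICAL FUNCTION, adelic/analytic): `F(z) = y^{-1/2} φ₂(g_z)` is a nonzero cusp form
  of weight one on `Γ(N)`, with the Hecke identities as identities of functions.
* `QA4` (classical): `G(z) = F(N z)` on `Γ₁(N²)` and the identities of `q`-coefficients.
-/

set_option autoImplicit false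

open IsDedekindDomain NumberField AutomorphicForm
open CongruenceSubgroup UpperHalfPlane ModularForm
open scoped MatrixGroups Manifold ModularForm

noncomputable section

namespace Fermat.Agent.LT.H670.QOut

open Fermat.Agent.LT.H556

/-! ## Concrete local elements at the real place -/

/-- `k_θ = [[cos θ, sin θ], [-sin θ, cos θ]] ∈ SO(2)` -/
def kTheta (θ : ℝ) : GL (Fin 2) ℝ :=
  Matrix.GeneralLinearGroup.mkOfDetNeZero
    !![Real.cos θ, Real.sin θ; -Real.sin θ, Real.cos θ]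
    (by
      rw [Matrix.det_fin_two_of]
      have h := Real.sin_sq_add_cos_sq θ
      have h2 : Real.cos θ * Real.cos θ - Real.sin θ * -Real.sin θ = 1 := by nlinarith
      rw [h2]; exact one_ne_zero)

/-- `g_z = [[y, x], [0, 1]]` -/
def gzMat (z : ℍ) : GL (Fin 2) ℝ :=
  Matrix.GeneralLinearGroup.mkOfDetNeZero !![z.im, z.re; 0, 1]
    (by
      rw [Matrix.det_fin_two_of]
      simpa using z.im_pos.ne')

/-- the positive scalar `r` -/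
def scalR (r : ℝ) (hr : 0 < r) : GL (Fin 2) ℝ :=
  Matrix.GeneralLinearGroup.mkOfDetNeZero !![r, 0; 0, r]
    (by
      rw [Matrix.det_fin_two_of]
      simpa using (mul_pos hr hr).ne')

/-- the classical function attached to `φ` and the element `g` (used for `g` trivial at the real
place): `z ↦ y^{-1/2} φ(g_z g)` -/
def famFn (φ : A0.G ℚ → ℂ) (g : A0.G ℚ) (z : ℍ) : ℂ :=
  (((Real.sqrt z.im : ℝ) : ℂ))⁻¹ * φ (locInf (gzMat z) * g)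

/-- the ideal `(N)` of `𝓞 ℚ` -/
def lvl (N : ℕ) : Ideal (𝓞 ℚ) := Ideal.span {((N : ℕ) : 𝓞 ℚ)}

/-- `u` is trivial at the real place, and `u ≡ diag(a, d) mod N` at every finite place
(in particular `u` is integral at every finite place) -/
def DiagMod (N : ℕ) (a d : ℤ) (u : A0.G ℚ) : Prop :=
  (∀ w : InfinitePlace ℚ, A0.TrivAtInf w u) ∧
    ∀ (v : HeightOneSpectrum (𝓞 ℚ)) (i j : Fin 2),
      (A0.finComp v u -
        Matrix.diagonal ![((a : ℤ) : v.adicCompletion ℚ), ((d : ℤ) : v.adicCompletion ℚ)]) i j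
        ∈ A0.idealClosure (lvl N) v

/-- **Form of level `U(N)`, concrete shape**, with eigenvalues `a p`, `b p` at `p ∤ N` and a base
point on the real component. -/
structure IsLevelForm (N : ℕ) (a b : Nat.Primes → ℂ) (φ : A0.G ℚ → ℂ) : Prop where
  bdd : ∃ C : ℝ, ∀ g : A0.G ℚ, ‖φ g‖ ≤ C
  left_inv : ∀ (γ : GL (Fin 2) ℚ) (g : A0.G ℚ), φ (diagQ γ * g) = φ g
  level_inv : ∀ u : A0.G ℚ, A0.InLevelGroup (lvl N) u → ∀ g : A0.G ℚ, φ (g * u) = φ g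
  arch_scalar : ∀ (r : ℝ) (hr : 0 < r) (g : A0.G ℚ), φ (g * locInf (scalR r hr)) = φ g
  weight_one : ∀ (θ : ℝ) (g : A0.G ℚ),
    φ (g * locInf (kTheta θ)) = Complex.exp (Complex.I * ((θ : ℝ) : ℂ)) * φ g
  holo : ∀ g : A0.G ℚ, (∀ w : InfinitePlace ℚ, A0.TrivAtInf w g) →
    MDifferentiable 𝓘(ℂ) 𝓘(ℂ) (famFn φ g)
  hecke : ∀ p : Nat.Primes, ¬ (p : ℕ) ∣ N → A0.IsHeckeEigenAt φ (ratPrime p) (a p) (b p)
  based : ∃ z : ℍ, φ (locInf (gzMat z)) ≠ 0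

/-- equivariance under `{u ∈ GL₂(ẑ) : u ≡ diagonal mod N}` with the character `(ψ₁, ψ₂)` -/
def TorusEquiv (N : ℕ) (ψ₁ ψ₂ : DirichletCharacter ℂ N) (φ : A0.G ℚ → ℂ) : Prop :=
  ∀ (a d a' d' : ℤ) (u : A0.G ℚ), (N : ℤ) ∣ a * a' - 1 → (N : ℤ) ∣ d * d' - 1 →
    DiagMod N a d u → DiagMod N a' d' u⁻¹ →
    ∀ g : A0.G ℚ, φ (g * u) = ψ₁ ((a : ℤ) : ZMod N) * ψ₂ ((d : ℤ) : ZMod N) * φ g

/-- the Hecke identities for the classical function `F` on `Γ(N)`: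
`ψ₁(p)⁻¹ (1/p) Σ_{j<p} F((z + N j)/p) + ψ₂(p)⁻¹ F(p z) = a_p F(z)`, `b_p ψ₁(p) ψ₂(p) = 1`. -/
def FnHecke (N : ℕ) (ψ₁ ψ₂ : DirichletCharacter ℂ N) (a b : Nat.Primes → ℂ) (F : ℍ → ℂ) :
    Prop :=
  ∀ p : Nat.Primes, ¬ (p : ℕ) ∣ N →
    ((ψ₁ (((p : ℕ) : ℕ) : ZMod N))⁻¹ •
          (∑ j ∈ Finset.range (p : ℕ), F ∣[(1 : ℤ)] heckeMatrix (p : ℕ) (N * j)) +
        (ψ₂ (((p : ℕ) : ℕ) : ZMod N))⁻¹ • (F ∣[(1 : ℤ)] heckeDiagMatrix (p : ℕ))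
      = a p • F) ∧
    b p * (ψ₁ (((p : ℕ) : ℕ) : ZMod N) * ψ₂ (((p : ℕ) : ℕ) : ZMod N)) = 1

/-! ## The sub-leaves -/

/-- **QA1 (base point).** -/
def QA1 : Prop :=
  ∀ (π : HeckeEigensystem ℚ ℂ) (φ : A0.G ℚ → ℂ), IsHolWtOneFormFor π φ →
    ∃ (N : ℕ) (_ : NeZero N) (φ₁ : A0.G ℚ → ℂ),
      IsLevelForm N (fun p => π.a (ratPrime p)) (fun p => π.b (ratPrime p)) φ₁

/-- **QA2 (torus eigen-projection).** -/
def QA2 : Prop :=
  ∀ (N : ℕ) (_ : NeZero N) (a b : Nat.Primes → ℂ) (φ₁ : A0.G ℚ → ℂ), IsLevelForm N a b φ₁ →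
    ∃ (ψ₁ ψ₂ : DirichletCharacter ℂ N) (φ₂ : A0.G ℚ → ℂ),
      IsLevelForm N a b φ₂ ∧ TorusEquiv N ψ₁ ψ₂ φ₂

/-- **QA3 (the classical function).** -/
def QA3 : Prop :=
  ∀ (N : ℕ) (_ : NeZero N) (a b : Nat.Primes → ℂ) (ψ₁ ψ₂ : DirichletCharacter ℂ N)
    (φ₂ : A0.G ℚ → ℂ), IsLevelForm N a b φ₂ → TorusEquiv N ψ₁ ψ₂ φ₂ →
    ∃ F : CuspForm (Gamma N) 1, F ≠ 0 ∧ FnHecke N ψ₁ ψ₂ a b F

/-- **QA4 (classical: rescaling and `q`-coefficients).** -/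
def QA4 : Prop :=
  ∀ (N : ℕ) (_ : NeZero N) (a b : Nat.Primes → ℂ) (ψ₁ ψ₂ : DirichletCharacter ℂ N)
    (F : CuspForm (Gamma N) 1), F ≠ 0 → FnHecke N ψ₁ ψ₂ a b F →
    ∃ (M : ℕ) (_ : NeZero M) (α β : DirichletCharacter ℂ M) (G : CuspForm (Gamma1 M) 1),
      G ≠ 0 ∧ TwistedEigen M α β a b G

/-! ## Assembly -/

/-- **QA from its four sub-leaves.** -/
theorem qa_of_leaves (h1 : QA1) (h2 : QA2) (h3 : QA3) (h4 : QA4) : QA := by
  intro π φ hφ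
  obtain ⟨N, hN, φ₁, hφ₁⟩ := h1 π φ hφ
  obtain ⟨ψ₁, ψ₂, φ₂, hφ₂, hT⟩ := h2 N hN _ _ φ₁ hφ₁
  obtain ⟨F, hF, hH⟩ := h3 N hN _ _ ψ₁ ψ₂ φ₂ hφ₂ hT
  exact h4 N hN _ _ ψ₁ ψ₂ F hF hH

/-- **QOUT from the five leaves.** -/
theorem qOut_of_five (h1 : QA1) (h2 : QA2) (h3 : QA3) (h4 : QA4) (hN : QN) : QOutC :=
  qOut_of_leaves (qa_of_leaves h1 h2 h3 h4) hN

end Fermat.Agent.LT.H670.QOut

end
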