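import Fermat.Agent.LT.H670.QOut.ClassA4

/-!
# Row LT, T7.QOUT (helper670): current top

`qOut_of_three : QA1 → QA2 → QA3 → QOutC` (the classical leaves `QA4`, `QN` are PROVED).  OFF-MAIN.
-/

set_option autoImplicit false

namespace Fermat.Agent.LT.H670.QOut

/-- **QOUT from the three adelic leaves.** -/
theorem qOut_of_three (h1 : QA1) (h2 : QA2) (h3 : QA3) : QOutC :=
  qOut_of_five h1 h2 h3 qA4 qN

end Fermat.Agent.LT.H670.QOut
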