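import Fermat.Agent.LT.H670.QOut.ClassA3M
import Fermat.Agent.LT.H670.QOut.Top

/-!
# Row LT, T7.QOUT (helper670): `QA3` from its HECKE HALF

`QA3H` = the Hecke identities of `famFn φ₂ 1` (leaf, claimed by helper698 / helper237);
the cusp-form half is PROVED (`ClassA3M.lean`).  `qa3_of_hecke : QA3H → QA3`.  OFF-MAIN.
-/

set_option autoImplicit false

open CongruenceSubgroup
open scoped MatrixGroups

namespace Fermat.Agent.LT.H670.QOut

open Fermat.Agent.LT.H556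

/-- **Leaf QA3H (the Hecke half of QA3).** -/
def QA3H : Prop :=
  ∀ (N : ℕ) (_ : NeZero N) (a b : Nat.Primes → ℂ) (ψ₁ ψ₂ : DirichletCharacter ℂ N)
    (φ₂ : A0.G ℚ → ℂ), IsLevelForm N a b φ₂ → TorusEquiv N ψ₁ ψ₂ φ₂ →
    FnHecke N ψ₁ ψ₂ a b (famFn φ₂ 1)

/-- **QA3 from its Hecke half.** -/
theorem qa3_of_hecke (hH : QA3H) : QA3 := by
  intro N hN a b ψ₁ ψ₂ φ₂ hφ hT
  have : NeZero N := hN
  exact ⟨cuspOfLevelForm N a b φ₂ hφ, cuspOfLevelForm_ne_zero N a b φ₂ hφ,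
    hH N hN a b ψ₁ ψ₂ φ₂ hφ hT⟩

/-- **QOUT from QA1, QA2 and the Hecke half of QA3.** -/
theorem qOut_of_hecke (h1 : QA1) (h2 : QA2) (hH : QA3H) : QOutC :=
  qOut_of_three h1 h2 (qa3_of_hecke hH)

end Fermat.Agent.LT.H670.QOut
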